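import Fermat.Agent.DimS2.Reg

set_option autoImplicit false
set_option linter.unusedSectionVars false

open UpperHalfPlane ModularForm MatrixGroups Matrix.SpecialLinearGroup Filter Function
open scoped Manifold Topology Real
open Module Submodule

noncomputable section

namespace Fermat.Agent.DimS2

/-- standing assumptions on the finite `SL(2,ℤ)`-set `X` -/
structure Good (X : Type) [MulAction SL(2,ℤ) X] (N : ℕ) : Prop where
  hN : 0 < N
  hT : ∀ x : X, (ModularGroup.T ^ N) • x = x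
  neg : ∀ k < 0, VM X k = ⊥
  odd : ∀ k, Odd k → VM X k = ⊥
  rank0 : finrank ℂ (VM X 0) = 1
  sep : ∀ (z : ℍ) (x y : X), x ≠ y → ∃ k, ∃ F ∈ VM X k, F x z ≠ F y z

variable {X : Type} [MulAction SL(2,ℤ) X] [Fintype X] {N : ℕ}

lemma disc_isL1 : IsL1 12 discriminant := isL1_coe_cusp CuspForm.discriminant

lemma disc_ne : discriminant ≠ 0 := by
  intro h
  exact discriminant_ne_zero UpperHalfPlane.I (congrFun h _)

variable (X) in
/-- restriction of multiplication -/
def smL {a k : ℤ} {f : ℍ → ℂ} (hf : IsL1 a f) : VM X (k - a) →ₗ[ℂ] VM X k :=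
  ((sm f).domRestrict (VM X (k - a))).codRestrict (VM X k) (fun F => by
    have := sm_mem hf F.2
    rwa [add_sub_cancel] at this)

@[simp] lemma smL_apply {a k : ℤ} {f : ℍ → ℂ} (hf : IsL1 a f) (F : VM X (k - a)) :
    ((smL X hf F : VM X k) : X → ℍ → ℂ) = sm f F.1 := rfl

lemma smL_inj {a k : ℤ} {f : ℍ → ℂ} (hf : IsL1 a f) (hf0 : f ≠ 0) :
    Function.Injective (smL X (k := k) hf) := by
  rw [injective_iff_map_eq_zero]
  intro F hF
  apply Subtype.ext
  exact sm_inj hf.holo hf0 F.2 (congrArg Subtype.val hF)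

lemma jetL_ker (h : Good X N) (k : ℤ) :
    LinearMap.ker (jetL X h.hN h.hT k) = LinearMap.range (smL X (k := k) disc_isL1) := by
  ext F
  rw [LinearMap.mem_ker, jetL_apply, jet_eq_zero_iff h.hN h.hT F.2, LinearMap.mem_range]
  constructor
  · rintro ⟨G, hG, hFG⟩
    exact ⟨⟨G, hG⟩, Subtype.ext hFG.symm⟩
  · rintro ⟨G, hG⟩
    exact ⟨G.1, G.2, (congrArg Subtype.val hG).symm⟩

lemma fin_aux (h : Good X N) (k : ℤ) (hk : Module.Finite ℂ (VM X (k - 12))) :
    Module.Finite ℂ (VM X k) := by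
  rw [Module.finite_def]
  apply Submodule.fg_of_fg_map_of_fg_inf_ker (jetL X h.hN h.hT k)
  · exact IsNoetherian.noetherian _
  · rw [top_inf_eq, jetL_ker h]
    exact Module.Finite.iff_fg.mp inferInstance

lemma fin (h : Good X N) (k : ℤ) : Module.Finite ℂ (VM X k) := by
  have key : ∀ n : ℕ, ∀ k : ℤ, k < 12 * n → Module.Finite ℂ (VM X k) := by
    intro n
    induction n with
    | zero =>
      intro k hk
      rw [h.neg k (by simpa using hk)]
      infer_instance
    | succ n ih =>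
      intro k hk
      refine fin_aux h k (ih _ ?_)
      push_cast at hk
      omega
  obtain ⟨n, hn⟩ : ∃ n : ℕ, k < 12 * n := ⟨(k + 1).toNat, by omega⟩
  exact key n k hn

/-- dimension -/
def d (X : Type) [MulAction SL(2,ℤ) X] (k : ℤ) : ℕ := finrank ℂ (VM X k)

lemma d_neg (h : Good X N) {k : ℤ} (hk : k < 0) : d X k = 0 := by
  rw [d, h.neg k hk]; simp

lemma d_odd (h : Good X N) {k : ℤ} (hk : Odd k) : d X k = 0 := by
  rw [d, h.odd k hk]; simp

lemma d_jet (h : Good X N) (k : ℤ) :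
    d X k = finrank ℂ (LinearMap.range (jetL X h.hN h.hT k)) + d X (k - 12) := by
  have := fin h k
  have := fin h (k - 12)
  rw [d, ← LinearMap.finrank_range_add_finrank_ker (jetL X h.hN h.hT k), jetL_ker h,
    LinearMap.finrank_range_of_inj (smL_inj disc_isL1 disc_ne)]
  rfl

lemma d_le (h : Good X N) (k : ℤ) : d X k ≤ d X (k - 12) + Fintype.card X := by
  rw [d_jet h k, add_comm]
  have := Submodule.finrank_le (LinearMap.range (jetL X h.hN h.hT k))
  rw [Module.finrank_pi] at this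
  omega

lemma jet_surj_of_d (h : Good X N) (k : ℤ) (hd : d X k = d X (k - 12) + Fintype.card X) :
    Function.Surjective (jetL X h.hN h.hT k) := by
  rw [← LinearMap.range_eq_top]
  apply Submodule.eq_top_of_finrank_eq
  rw [Module.finrank_pi]
  have := d_jet h k
  omega

variable (X) in
/-- decomposable part -/
def Dec (k : ℤ) : Submodule ℂ (X → ℍ → ℂ) :=
  (VM X (k - 4)).map (sm e4) ⊔ (VM X (k - 6)).map (sm e6)

lemma Dec_le (k : ℤ) : Dec X k ≤ VM X k := by
  refine sup_le ?_ ?_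
  · rw [Submodule.map_le_iff_le_comap]
    intro F hF
    have := sm_mem e4_isL1 hF
    rwa [add_sub_cancel] at this
  · rw [Submodule.map_le_iff_le_comap]
    intro F hF
    have := sm_mem e6_isL1 hF
    rwa [add_sub_cancel] at this

lemma finrank_map {k : ℤ} {f : ℍ → ℂ} (hf : MDiff f) (hf0 : f ≠ 0) :
    finrank ℂ ((VM X k).map (sm f)) = d X k := by
  rw [← LinearMap.range_domRestrict, LinearMap.finrank_range_of_inj]
  · rfl
  · rw [injective_iff_map_eq_zero]
    intro F hF
    exact Subtype.ext (sm_inj hf hf0 F.2 hF)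

lemma inf_eq (k : ℤ) : (VM X (k - 4)).map (sm e4) ⊓ (VM X (k - 6)).map (sm e6) =
    (VM X (k - 10)).map (sm (e4 * e6)) := by
  ext F
  constructor
  · rintro ⟨⟨G, hG, hGF⟩, ⟨G', hG', hGF'⟩⟩
    obtain ⟨H, hH, rfl, rfl⟩ := regular hG hG' (hGF.trans hGF'.symm)
    refine ⟨H, hH, ?_⟩
    rw [← hGF]
    ext x z
    simp [mul_assoc]
  · rintro ⟨H, hH, rfl⟩
    refine ⟨⟨sm e6 H, ?_, ?_⟩, ⟨sm e4 H, ?_, ?_⟩⟩
    · have := sm_mem e6_isL1 hH
      rwa [show 6 + (k - 10) = k - 4 by ring] at this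
    · ext x z; simp [mul_assoc]
    · have := sm_mem e4_isL1 hH
      rwa [show 4 + (k - 10) = k - 6 by ring] at this
    · ext x z; simp only [sm_apply, Pi.mul_apply]; ring

lemma e46_ne : e4 * e6 ≠ 0 := by
  intro h
  rcases (UpperHalfPlane.mul_eq_zero_iff e4_isL1.holo e6_isL1.holo).mp h with h | h
  · exact e4_ne_zero h
  · exact e6_ne_zero h

lemma finrank_Dec (h : Good X N) (k : ℤ) :
    finrank ℂ (Dec X k) + d X (k - 10) = d X (k - 4) + d X (k - 6) := by
  have := fin h (k - 4)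
  have := fin h (k - 6)
  have := Submodule.finrank_sup_add_finrank_inf_eq ((VM X (k - 4)).map (sm e4))
    ((VM X (k - 6)).map (sm e6))
  rw [inf_eq, finrank_map e4_isL1.holo e4_ne_zero, finrank_map e6_isL1.holo e6_ne_zero,
    finrank_map (e4_isL1.holo.mul e6_isL1.holo) e46_ne] at this
  exact this

/-- number of generators in weight `k` -/
def nn (X : Type) [MulAction SL(2,ℤ) X] (k : ℤ) : ℕ := d X k - finrank ℂ (Dec X k)

lemma nn_eq (h : Good X N) (k : ℤ) :
    (nn X k : ℤ) = d X k - d X (k - 4) - d X (k - 6) + d X (k - 10) := by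
  have h1 := finrank_Dec h k
  have := fin h k
  have h2 : finrank ℂ (Dec X k) ≤ d X k := Submodule.finrank_mono (Dec_le k)
  unfold nn
  omega

lemma exists_gens (h : Good X N) (k : ℤ) : ∃ g : Fin (nn X k) → (X → ℍ → ℂ),
    (∀ i, g i ∈ VM X k) ∧ VM X k ≤ Dec X k ⊔ span ℂ (Set.range g) := by
  have := fin h k
  obtain ⟨W', hW'⟩ := Submodule.exists_isCompl (Dec X k)
  set W := W' ⊓ VM X k with hW
  have h1 : Dec X k ⊔ W = VM X k := by
    rw [hW, ← sup_inf_assoc_of_le _ (Dec_le k), hW'.sup_eq_top, top_inf_eq]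
  have h2 : Dec X k ⊓ W = ⊥ := by
    rw [hW, ← inf_assoc, hW'.inf_eq_bot, bot_inf_eq]
  have : Module.Finite ℂ (Dec X k) := Submodule.finiteDimensional_of_le (Dec_le k)
  have : Module.Finite ℂ W := Submodule.finiteDimensional_of_le (inf_le_right)
  have h3 : finrank ℂ W = nn X k := by
    have := Submodule.finrank_sup_add_finrank_inf_eq (Dec X k) W
    rw [h1, h2, finrank_bot] at this
    unfold nn d
    omega
  let b := (Module.finBasis ℂ W).reindex (finCongr h3)
  refine ⟨fun i => (b i : X → ℍ → ℂ), fun i => (b i).2.2, ?_⟩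
  rw [← h1]
  refine sup_le le_sup_left (le_trans ?_ le_sup_right)
  intro w hw
  have h4 := b.mem_span ⟨w, hw⟩
  have h5 := Submodule.mem_map_of_mem (f := W.subtype) h4
  rw [Submodule.map_span, ← Set.range_comp] at h5
  exact h5

/-- total number of generators of weight at most `K` -/
def nu (X : Type) [MulAction SL(2,ℤ) X] (K : ℕ) : ℕ := ∑ k ∈ Finset.range (K + 1), nn X (k : ℤ)

lemma nu_eq (h : Good X N) (K : ℕ) : (nu X K : ℤ) =
    d X K + d X (K - 1) + d X (K - 2) + d X (K - 3) - d X (K - 6) - d X (K - 7) - d X (K - 8)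
      - d X (K - 9) := by
  induction K with
  | zero =>
    simp only [nu, zero_add, Finset.range_one, Finset.sum_singleton]
    rw [nn_eq h]
    simp only [Nat.cast_zero]
    rw [d_neg h (k := 0 - 4) (by norm_num), d_neg h (k := 0 - 6) (by norm_num),
      d_neg h (k := 0 - 10) (by norm_num), d_neg h (k := 0 - 1) (by norm_num),
      d_neg h (k := 0 - 2) (by norm_num), d_neg h (k := 0 - 3) (by norm_num),
      d_neg h (k := 0 - 7) (by norm_num), d_neg h (k := 0 - 8) (by norm_num),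
      d_neg h (k := 0 - 9) (by norm_num)]
    simp
  | succ K ih =>
    have h1 : nu X (K + 1) = nu X K + nn X ((K + 1 : ℕ) : ℤ) := by
      unfold nu; rw [Finset.sum_range_succ]
    rw [h1]
    push_cast
    rw [nn_eq h, ih]
    have e1 : (K : ℤ) + 1 - 1 = K := by ring
    have e2 : (K : ℤ) + 1 - 2 = K - 1 := by ring
    have e3 : (K : ℤ) + 1 - 3 = K - 2 := by ring
    have e4 : (K : ℤ) + 1 - 4 = K - 3 := by ring
    have e6 : (K : ℤ) + 1 - 6 = K - 5 := by ring
    have e7 : (K : ℤ) + 1 - 7 = K - 6 := by ring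
    have e8 : (K : ℤ) + 1 - 8 = K - 7 := by ring
    have e9 : (K : ℤ) + 1 - 9 = K - 8 := by ring
    have e10 : (K : ℤ) + 1 - 10 = K - 9 := by ring
    rw [e1, e2, e3, e4, e6, e7, e8, e9, e10]
    ring

lemma nu_add (h : Good X N) (K : ℕ) : (nu X K : ℤ) + nu X (K + 6) =
    (d X (K + 6) - d X (K + 6 - 12) : ℤ) + (d X (K + 5) - d X (K + 5 - 12)) +
      (d X (K + 4) - d X (K + 4 - 12)) + (d X (K + 3) - d X (K + 3 - 12)) := by
  rw [nu_eq h, nu_eq h]
  push_cast
  have e1 : (K : ℤ) + 6 - 1 = K + 5 := by ring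
  have e2 : (K : ℤ) + 6 - 2 = K + 4 := by ring
  have e3 : (K : ℤ) + 6 - 3 = K + 3 := by ring
  have e6 : (K : ℤ) + 6 - 6 = K := by ring
  have e7 : (K : ℤ) + 6 - 7 = K - 1 := by ring
  have e8 : (K : ℤ) + 6 - 8 = K - 2 := by ring
  have e9 : (K : ℤ) + 6 - 9 = K - 3 := by ring
  have e12 : (K : ℤ) + 6 - 12 = K - 6 := by ring
  have e13 : (K : ℤ) + 5 - 12 = K - 7 := by ring
  have e14 : (K : ℤ) + 4 - 12 = K - 8 := by ring
  have e15 : (K : ℤ) + 3 - 12 = K - 9 := by ring
  rw [e1, e2, e3, e6, e7, e8, e9, e12, e13, e14, e15]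
  ring

lemma nu_mono {K L : ℕ} (hKL : K ≤ L) : nu X K ≤ nu X L := by
  unfold nu
  exact Finset.sum_le_sum_of_subset (by intro x; simp; omega)

lemma nu_add_le (h : Good X N) (K : ℕ) : nu X K + nu X (K + 6) ≤ 2 * Fintype.card X := by
  have h1 := nu_add h K
  have h6 := d_le h (K + 6)
  have h5 := d_le h (K + 5)
  have h4 := d_le h (K + 4)
  have h3 := d_le h (K + 3)
  rcases Int.even_or_odd (K : ℤ) with he | ho
  · have o5 := d_odd h (k := K + 5) (by
      exact he.add_odd (by decide))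
    have o3 := d_odd h (k := K + 3) (by
      exact he.add_odd (by decide))
    omega
  · have o6 := d_odd h (k := K + 6) (by
      exact ho.add_even (by decide))
    have o4 := d_odd h (k := K + 4) (by
      exact ho.add_even (by decide))
    omega

lemma nu_le (h : Good X N) (K : ℕ) : nu X K ≤ Fintype.card X := by
  have h1 := nu_add_le h K
  have h2 := nu_mono (X := X) (show K ≤ K + 6 by omega)
  omega

lemma exists_stable (h : Good X N) : ∃ K₀ : ℕ, ∀ K, K₀ ≤ K → nu X K = nu X K₀ := by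
  have hb : BddAbove (Set.range (nu X)) := ⟨Fintype.card X, by
    rintro _ ⟨K, rfl⟩; exact nu_le h K⟩
  obtain ⟨K₀, hK₀⟩ := Nat.sSup_mem (Set.range_nonempty (nu X)) hb
  refine ⟨K₀, fun K hK => le_antisymm ?_ (nu_mono hK)⟩
  rw [hK₀]
  exact le_csSup hb ⟨K, rfl⟩

lemma nn_eq_zero_of_stable {K₀ : ℕ} (hK : ∀ K, K₀ ≤ K → nu X K = nu X K₀) (k : ℕ) (hk : K₀ < k) :
    nn X (k : ℤ) = 0 := by
  obtain ⟨k, rfl⟩ : ∃ k', k = k' + 1 := ⟨k - 1, by omega⟩
  have h1 : nu X (k + 1) = nu X k + nn X ((k + 1 : ℕ) : ℤ) := by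
    unfold nu; rw [Finset.sum_range_succ]
  have h2 := hK k (by omega)
  have h3 := hK (k + 1) (by omega)
  omega

/-- The module generated by a family. -/
def GenM {J : Type} [Fintype J] (w : J → ℤ) (F : J → X → ℍ → ℂ) (k : ℤ) :
    Submodule ℂ (X → ℍ → ℂ) where
  carrier := {G | ∃ r : J → ℍ → ℂ, (∀ j, IsL1 (k - w j) (r j)) ∧ G = ∑ j, sm (r j) (F j)}
  add_mem' := by
    rintro _ _ ⟨r, hr, rfl⟩ ⟨s, hs, rfl⟩
    refine ⟨fun j => r j + s j, fun j => ?_, ?_⟩
    · refine ⟨fun γ => ?_, (hr j).holo.add (hs j).holo, (hr j).bdd.add (hs j).bdd⟩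
      rw [SlashAction.add_slash, (hr j).slash, (hs j).slash]
    · rw [← Finset.sum_add_distrib]
      refine Finset.sum_congr rfl fun j _ => ?_
      ext x z; simp [add_mul]
  zero_mem' := ⟨fun _ => 0, fun j => ⟨fun γ => by simp, mdifferentiable_const,
      by simpa using! zero_form_isBoundedAtImInfty⟩, by
        symm; apply Finset.sum_eq_zero; intro j _; ext x z; simp⟩
  smul_mem' := by
    rintro c _ ⟨r, hr, rfl⟩
    refine ⟨fun j => c • r j, fun j => ?_, ?_⟩
    · refine ⟨fun γ => ?_, (hr j).holo.const_smul c, (hr j).bdd.const_smul_left c⟩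
      rw [SL_smul_slash, (hr j).slash]
    · rw [Finset.smul_sum]
      refine Finset.sum_congr rfl fun j _ => ?_
      ext x z; simp [mul_assoc]

lemma isL1_zero (k : ℤ) : IsL1 k 0 := ⟨fun γ => by simp, mdifferentiable_const,
      by simpa using! zero_form_isBoundedAtImInfty⟩

lemma mem_GenM_self {J : Type} [Fintype J] (w : J → ℤ) (F : J → X → ℍ → ℂ) (j : J) :
    F j ∈ GenM w F (w j) := by
  classical
  refine ⟨fun i => if i = j then 1 else 0, fun i => ?_, ?_⟩
  · by_cases hi : i = j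
    · subst hi
      simp only [if_true, sub_self]
      exact isL1_one
    · simp only [if_neg hi]
      exact isL1_zero _
  · rw [Finset.sum_eq_single j]
    · ext x z; simp
    · intro i _ hi
      ext x z; simp [hi]
    · simp

lemma sm_mem_GenM {J : Type} [Fintype J] (w : J → ℤ) (F : J → X → ℍ → ℂ) {a k : ℤ} {f : ℍ → ℂ}
    (hf : IsL1 a f) {G : X → ℍ → ℂ} (hG : G ∈ GenM w F (k - a)) : sm f G ∈ GenM w F k := by
  obtain ⟨r, hr, rfl⟩ := hG
  refine ⟨fun j => f * r j, fun j => ?_, ?_⟩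
  · have := hf.mul (hr j)
    exact this.congr_weight (by ring)
  · rw [map_sum]
    refine Finset.sum_congr rfl fun j _ => ?_
    ext x z; simp [mul_assoc]

/-- Existence of a homogeneous generating family of cardinality at most `card X`. -/
theorem exists_generators (h : Good X N) : ∃ (J : Type) (_ : Fintype J) (w : J → ℕ)
    (F : J → X → ℍ → ℂ) (K₀ : ℕ), (∀ j, F j ∈ VM X (w j)) ∧
    (∀ k, VM X k ≤ GenM (fun j => (w j : ℤ)) F k) ∧
    Fintype.card J = nu X K₀ ∧ (∀ K, K₀ ≤ K → nu X K = nu X K₀) := by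
  obtain ⟨K₀, hK₀⟩ := exists_stable h
  choose g hg1 hg2 using fun k : ℕ => exists_gens h (k : ℤ)
  refine ⟨Σ k : Fin (K₀ + 1), Fin (nn X (k : ℤ)), inferInstance, fun j => j.1,
    fun j => g j.1 j.2, K₀, fun j => hg1 _ _, ?_, ?_, hK₀⟩
  · set w : (Σ k : Fin (K₀ + 1), Fin (nn X ((k : ℕ) : ℤ))) → ℤ := fun j => ((j.1 : ℕ) : ℤ) with hw
    set F : (Σ k : Fin (K₀ + 1), Fin (nn X ((k : ℕ) : ℤ))) → X → ℍ → ℂ := fun j => g j.1 j.2 with hF
    have key : ∀ n : ℕ, ∀ k : ℤ, k < n → VM X k ≤ GenM w F k := by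
      intro n
      induction n with
      | zero =>
        intro k hk
        rw [h.neg k (by simpa using hk)]
        exact bot_le
      | succ n ih =>
        intro k hk
        by_cases hk0 : k < 0
        · rw [h.neg k hk0]
          exact bot_le
        · obtain ⟨k, rfl⟩ := Int.eq_ofNat_of_zero_le (not_lt.mp hk0)
          refine (hg2 k).trans ?_
          refine sup_le (sup_le ?_ ?_) ?_
          · rintro _ ⟨G, hG, rfl⟩
            exact sm_mem_GenM w F e4_isL1 (ih _ (by push_cast at hk; omega) hG)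
          · rintro _ ⟨G, hG, rfl⟩
            exact sm_mem_GenM w F e6_isL1 (ih _ (by push_cast at hk; omega) hG)
          · rw [span_le]
            rintro _ ⟨i, rfl⟩
            by_cases hkK : k ≤ K₀
            · exact mem_GenM_self w F ⟨⟨k, by omega⟩, i⟩
            · have := nn_eq_zero_of_stable hK₀ k (by omega)
              rw [this] at i
              exact i.elim0
    intro k
    obtain ⟨n, hn⟩ : ∃ n : ℕ, k < n := ⟨(k + 1).toNat, by omega⟩
    exact key n k hn
  · rw [Fintype.card_sigma]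
    simp only [Fintype.card_fin]
    rw [nu, Finset.sum_range]

end Fermat.Agent.DimS2
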