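import Fermat.Agent.DimS2.Jets

set_option autoImplicit false
set_option linter.unusedSectionVars false

open UpperHalfPlane ModularForm MatrixGroups Matrix.SpecialLinearGroup Filter Function
open scoped Manifold Topology Real

noncomputable section

namespace Fermat.Agent.DimS2

variable {X : Type} [MulAction SL(2,ℤ) X]

/-- the functions `E₄`, `E₆` -/
def e4 : ℍ → ℂ := ⇑E₄
def e6 : ℍ → ℂ := ⇑E₆

lemma e4_isL1 : IsL1 4 e4 := isL1_coe E₄
lemma e6_isL1 : IsL1 6 e6 := isL1_coe E₆

lemma disc_eq (z : ℍ) : discriminant z = (e4 z ^ 3 - e6 z ^ 2) / 1728 :=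
  discriminant_eq_E₄_cube_sub_E₆_sq z

lemma e4_or_e6 (z : ℍ) : e4 z ≠ 0 ∨ e6 z ≠ 0 := by
  by_contra h
  push Not at h
  have := discriminant_ne_zero z
  rw [disc_eq, h.1, h.2] at this
  simp at this

lemma e4_ne_zero : e4 ≠ 0 := by
  intro h
  have := EisensteinSeries.E_ne_zero (k := 4) (by norm_num) ⟨2, rfl⟩
  exact this (by ext z; exact congrFun h z)

lemma e6_ne_zero : e6 ≠ 0 := by
  intro h
  have := EisensteinSeries.E_ne_zero (k := 6) (by norm_num) ⟨3, rfl⟩
  exact this (by ext z; exact congrFun h z)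

lemma IsL1.per {k : ℤ} {f : ℍ → ℂ} (hf : IsL1 k f) : Per 1 f := by
  refine ⟨periodic_of_vadd fun τ => ?_, hf.holo, hf.bdd⟩
  have h := hf.apply_smul ModularGroup.T τ
  rw [modular_T_smul, ModularGroup.denom_apply] at h
  rw [h]
  simp [ModularGroup.T]

lemma e4_tendsto : Tendsto e4 atImInfty (𝓝 1) := by
  have := e4_isL1.per.tendsto one_pos
  rwa [show (qExpansion 1 e4).coeff 0 = 1 from
    EisensteinSeries.E_qExpansion_coeff_zero (k := 4) (by norm_num) ⟨2, rfl⟩] at this

lemma sm_inj {f : ℍ → ℂ} (hf : MDiff f) (hf0 : f ≠ 0) {k : ℤ} {F : X → ℍ → ℂ} (hF : F ∈ VM X k)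
    (h : sm f F = 0) : F = 0 := by
  ext x : 1
  have h1 : f * F x = 0 := by
    ext z
    exact congrFun (congrFun h x) z
  rcases (UpperHalfPlane.mul_eq_zero_iff hf (VM.holo hF x)).mp h1 with h2 | h2
  · exact absurd h2 hf0
  · exact h2

/-- `E₄`, `E₆` form a regular sequence on modular forms -/
lemma regular {k : ℤ} {F G : X → ℍ → ℂ} (hF : F ∈ VM X (k - 4)) (hG : G ∈ VM X (k - 6))
    (h : sm e4 F = sm e6 G) : ∃ H ∈ VM X (k - 10), F = sm e6 H ∧ G = sm e4 H := by
  classical
  have h' : ∀ x z, e4 z * F x z = e6 z * G x z := fun x z => congrFun (congrFun h x) z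
  let H : X → ℍ → ℂ := fun x z => if e4 z = 0 then F x z / e6 z else G x z / e4 z
  have h4 : ∀ x z, e4 z * H x z = G x z := by
    intro x z
    simp only [H]
    split_ifs with h0
    · have h6 := (e4_or_e6 z).resolve_left (not_not.mpr h0)
      have := h' x z
      rw [h0, zero_mul] at this
      rcases mul_eq_zero.mp this.symm with h | h
      · exact absurd h h6
      · rw [h0, h, zero_mul]
    · field_simp
  have h6 : ∀ x z, e6 z * H x z = F x z := by
    intro x z
    simp only [H]
    split_ifs with h0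
    · have h6 := (e4_or_e6 z).resolve_left (not_not.mpr h0)
      field_simp
    · have := h' x z
      field_simp
      linear_combination -this
  refine ⟨H, ?_, ?_, ?_⟩
  · refine mem_VM_of_apply (fun γ x z => ?_) (fun x z => ?_) (fun x => ?_)
    · rcases e4_or_e6 (γ • z) with hz | hz
      · have h1 := h4 (γ • x) (γ • z)
        have h2 := h4 x z
        rw [VM.apply_smul hG, ← h2] at h1
        have h3 := e4_isL1.apply_smul γ z
        have h5 : e4 (γ • z) * H (γ • x) (γ • z) =
            e4 (γ • z) * (denom γ z ^ (k - 10) * H x z) := by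
          rw [h1, h3]
          have : denom γ z ^ (k - 6) = denom γ z ^ (4 : ℤ) * denom γ z ^ (k - 10) := by
            rw [← zpow_add₀ (denom_ne_zero _ _)]; congr 1; ring
          rw [this]; ring
        exact mul_left_cancel₀ hz h5
      · have h1 := h6 (γ • x) (γ • z)
        have h2 := h6 x z
        rw [VM.apply_smul hF, ← h2] at h1
        have h3 := e6_isL1.apply_smul γ z
        have h5 : e6 (γ • z) * H (γ • x) (γ • z) =
            e6 (γ • z) * (denom γ z ^ (k - 10) * H x z) := by
          rw [h1, h3]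
          have : denom γ z ^ (k - 4) = denom γ z ^ (6 : ℤ) * denom γ z ^ (k - 10) := by
            rw [← zpow_add₀ (denom_ne_zero _ _)]; congr 1; ring
          rw [this]; ring
        exact mul_left_cancel₀ hz h5
    · rcases e4_or_e6 z with hz | hz
      · have h1 : MDifferentiableAt 𝓘(ℂ) 𝓘(ℂ) (fun z => G x z / e4 z) z :=
          (VM.holo hG x z).div (e4_isL1.holo z) hz
        refine h1.congr_of_eventuallyEq ?_
        have : ∀ᶠ w in 𝓝 z, e4 w ≠ 0 := e4_isL1.holo.continuous.continuousAt.eventually_ne hz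
        filter_upwards [this] with w hw
        simp [H, hw]
      · have h1 : MDifferentiableAt 𝓘(ℂ) 𝓘(ℂ) (fun z => F x z / e6 z) z :=
          (VM.holo hF x z).div (e6_isL1.holo z) hz
        refine h1.congr_of_eventuallyEq ?_
        have : ∀ᶠ w in 𝓝 z, e6 w ≠ 0 := e6_isL1.holo.continuous.continuousAt.eventually_ne hz
        filter_upwards [this] with w hw
        rw [eq_div_iff hw, mul_comm]
        exact h6 x w
    · have h1 : ∀ᶠ w in atImInfty, e4 w ≠ 0 := e4_tendsto.eventually_ne one_ne_zero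
      have h2 : (fun z => G x z / e4 z) =O[atImInfty] (fun _ => (1:ℝ)) := by
        have h3 : Tendsto (fun z => (e4 z)⁻¹) atImInfty (𝓝 (1:ℂ)⁻¹) :=
          e4_tendsto.inv₀ one_ne_zero
        have h4 : (fun z => (e4 z)⁻¹) =O[atImInfty] (fun _ => (1:ℝ)) := h3.isBigO_one ℝ
        have h5 : (fun z => G x z * (e4 z)⁻¹) =O[atImInfty] (fun _ => (1:ℝ) * 1) :=
          Asymptotics.IsBigO.mul (VM.bdd hG x) h4
        simp only [div_eq_mul_inv]
        simpa only [mul_one] using h5
      refine Asymptotics.IsBigO.congr' h2 ?_ EventuallyEq.rfl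
      filter_upwards [h1] with w hw
      simp [H, hw]
  · ext x z; exact (h6 x z).symm
  · ext x z; exact (h4 x z).symm

end Fermat.Agent.DimS2
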