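import Mathlib

set_option autoImplicit false
set_option linter.unusedSectionVars false

open UpperHalfPlane ModularForm MatrixGroups Matrix.SpecialLinearGroup Filter
open scoped Manifold Topology

noncomputable section

namespace Fermat.Agent.DimS2

/-- "Level one" modular forms, as a property of plain functions. -/
structure IsL1 (k : ℤ) (f : ℍ → ℂ) : Prop where
  slash : ∀ γ : SL(2,ℤ), f ∣[k] γ = f
  holo : MDiff f
  bdd : IsBoundedAtImInfty f

lemma isL1_coe {k : ℤ} (f : ModularForm 𝒮ℒ k) : IsL1 k (⇑f) where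
  slash γ := f.slash_action_eq' _ ⟨γ, rfl⟩
  holo := f.holo'
  bdd := ModularFormClass.bdd_at_infty f

/-- the modular form attached to a level one function -/
def IsL1.toMF {k : ℤ} {f : ℍ → ℂ} (hf : IsL1 k f) : ModularForm 𝒮ℒ k where
  toFun := f
  slash_action_eq' := by
    rintro _ ⟨γ, rfl⟩
    exact hf.slash γ
  holo' := hf.holo
  bdd_at_cusps' := by
    intro c hc
    rw [OnePoint.isBoundedAt_iff_forall_SL2Z hc]
    intro γ _
    rw [hf.slash γ]
    exact hf.bdd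

@[simp] lemma IsL1.coe_toMF {k : ℤ} {f : ℍ → ℂ} (hf : IsL1 k f) : ⇑hf.toMF = f := rfl

/-- the cusp form attached to a level one function vanishing at infinity -/
def IsL1.toCF {k : ℤ} {f : ℍ → ℂ} (hf : IsL1 k f) (h0 : IsZeroAtImInfty f) : CuspForm 𝒮ℒ k where
  toFun := f
  slash_action_eq' := by
    rintro _ ⟨γ, rfl⟩
    exact hf.slash γ
  holo' := hf.holo
  zero_at_cusps' := by
    intro c hc
    rw [OnePoint.isZeroAt_iff_forall_SL2Z hc]
    intro γ _
    rw [hf.slash γ]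
    exact h0

@[simp] lemma IsL1.coe_toCF {k : ℤ} {f : ℍ → ℂ} (hf : IsL1 k f) (h0 : IsZeroAtImInfty f) :
    ⇑(hf.toCF h0) = f := rfl

lemma isL1_coe_cusp {k : ℤ} (f : CuspForm 𝒮ℒ k) : IsL1 k (⇑f) where
  slash γ := f.slash_action_eq' _ ⟨γ, rfl⟩
  holo := f.holo'
  bdd := ModularFormClass.bdd_at_infty f

lemma isZero_coe_cusp {k : ℤ} (f : CuspForm 𝒮ℒ k) : IsZeroAtImInfty (⇑f) :=
  CuspFormClass.zero_at_infty f

lemma IsL1.mul {k l : ℤ} {f g : ℍ → ℂ} (hf : IsL1 k f) (hg : IsL1 l g) : IsL1 (k + l) (f * g) where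
  slash γ := by rw [mul_slash_SL2, hf.slash, hg.slash]
  holo := hf.holo.mul hg.holo
  bdd := hf.bdd.mul hg.bdd

lemma IsL1.congr_weight {k l : ℤ} {f : ℍ → ℂ} (hf : IsL1 k f) (h : k = l) : IsL1 l f := h ▸ hf

lemma isL1_one : IsL1 0 (1 : ℍ → ℂ) := by
  simpa using isL1_coe (1 : ModularForm 𝒮ℒ 0)

lemma IsL1.pow {k : ℤ} {f : ℍ → ℂ} (hf : IsL1 k f) (n : ℕ) : IsL1 (n * k) (f ^ n) := by
  induction n with
  | zero => simpa using isL1_one
  | succ n ih =>
    have := ih.mul hf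
    rw [pow_succ]
    refine this.congr_weight ?_
    push_cast; ring

variable (X : Type) [MulAction SL(2,ℤ) X]

/-- "vector valued" modular forms for the permutation representation on `X`. -/
def VM (k : ℤ) : Submodule ℂ (X → ℍ → ℂ) where
  carrier := {F | (∀ (γ : SL(2,ℤ)) (x : X), F (γ • x) ∣[k] γ = F x) ∧ (∀ x, MDiff (F x)) ∧
    ∀ x, IsBoundedAtImInfty (F x)}
  add_mem' := by
    rintro F G ⟨h1, h2, h3⟩ ⟨h1', h2', h3'⟩
    refine ⟨fun γ x => ?_, fun x => (h2 x).add (h2' x), fun x => (h3 x).add (h3' x)⟩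
    rw [Pi.add_apply, SlashAction.add_slash, h1, h1']; rfl
  zero_mem' := ⟨fun γ x => by rw [Pi.zero_apply, SlashAction.zero_slash]; rfl,
    fun x => mdifferentiable_const, fun x => by
      simpa using! zero_form_isBoundedAtImInfty⟩
  smul_mem' := by
    rintro c F ⟨h1, h2, h3⟩
    refine ⟨fun γ x => ?_, fun x => (h2 x).const_smul c, fun x => ?_⟩
    · rw [Pi.smul_apply, SL_smul_slash, h1]; rfl
    · exact (h3 x).const_smul_left c

/-- vector valued cusp forms -/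
def VS (k : ℤ) : Submodule ℂ (X → ℍ → ℂ) where
  carrier := {F | F ∈ VM X k ∧ ∀ x, IsZeroAtImInfty (F x)}
  add_mem' := by
    rintro F G ⟨h1, h2⟩ ⟨h1', h2'⟩
    exact ⟨add_mem h1 h1', fun x => (h2 x).add (h2' x)⟩
  zero_mem' := ⟨zero_mem _, fun x => Filter.zero_zeroAtFilter _⟩
  smul_mem' := by
    rintro c F ⟨h1, h2⟩
    exact ⟨Submodule.smul_mem _ c h1, fun x => (h2 x).smul c⟩

variable {X}

lemma VM.slash {k : ℤ} {F : X → ℍ → ℂ} (hF : F ∈ VM X k) (γ : SL(2,ℤ)) (x : X) :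
    F (γ • x) ∣[k] γ = F x := hF.1 γ x

lemma VM.holo {k : ℤ} {F : X → ℍ → ℂ} (hF : F ∈ VM X k) (x : X) : MDiff (F x) := hF.2.1 x

lemma VM.bdd {k : ℤ} {F : X → ℍ → ℂ} (hF : F ∈ VM X k) (x : X) : IsBoundedAtImInfty (F x) :=
  hF.2.2 x

lemma VM.apply_smul {k : ℤ} {F : X → ℍ → ℂ} (hF : F ∈ VM X k) (γ : SL(2,ℤ)) (x : X) (z : ℍ) :
    F (γ • x) (γ • z) = denom γ z ^ k * F x z := by
  have h := congrFun (hF.1 γ x) z
  rw [SL_slash_apply] at h
  rw [← h]
  have : denom γ z ^ k * (F (γ • x) (γ • z) * denom γ z ^ (-k)) =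
      F (γ • x) (γ • z) * (denom γ z ^ k * denom γ z ^ (-k)) := by ring
  rw [this, ← zpow_add₀ (denom_ne_zero _ _)]
  simp

lemma IsL1.apply_smul {k : ℤ} {f : ℍ → ℂ} (hf : IsL1 k f) (γ : SL(2,ℤ)) (z : ℍ) :
    f (γ • z) = denom γ z ^ k * f z := by
  have h := congrFun (hf.slash γ) z
  rw [SL_slash_apply] at h
  rw [← h]
  have : denom γ z ^ k * (f (γ • z) * denom γ z ^ (-k)) =
      f (γ • z) * (denom γ z ^ k * denom γ z ^ (-k)) := by ring
  rw [this, ← zpow_add₀ (denom_ne_zero _ _)]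
  simp

lemma mem_VM_of_apply {k : ℤ} {F : X → ℍ → ℂ}
    (h1 : ∀ (γ : SL(2,ℤ)) (x : X) (z : ℍ), F (γ • x) (γ • z) = denom γ z ^ k * F x z)
    (h2 : ∀ x, MDiff (F x)) (h3 : ∀ x, IsBoundedAtImInfty (F x)) : F ∈ VM X k := by
  refine ⟨fun γ x => ?_, h2, h3⟩
  ext z
  rw [SL_slash_apply, h1]
  have : denom γ z ^ k * F x z * denom γ z ^ (-k) =
      F x z * (denom γ z ^ k * denom γ z ^ (-k)) := by ring
  rw [this, ← zpow_add₀ (denom_ne_zero _ _)]
  simp

lemma isL1_of_apply {k : ℤ} {f : ℍ → ℂ}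
    (h1 : ∀ (γ : SL(2,ℤ)) (z : ℍ), f (γ • z) = denom γ z ^ k * f z)
    (h2 : MDiff f) (h3 : IsBoundedAtImInfty f) : IsL1 k f := by
  refine ⟨fun γ => ?_, h2, h3⟩
  ext z
  rw [SL_slash_apply, h1]
  have : denom γ z ^ k * f z * denom γ z ^ (-k) =
      f z * (denom γ z ^ k * denom γ z ^ (-k)) := by ring
  rw [this, ← zpow_add₀ (denom_ne_zero _ _)]
  simp

/-- multiplication of a vector valued function by a scalar function. -/
def sm (f : ℍ → ℂ) : (X → ℍ → ℂ) →ₗ[ℂ] (X → ℍ → ℂ) where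
  toFun F := fun x z => f z * F x z
  map_add' F G := by ext x z; simp [mul_add]
  map_smul' c F := by ext x z; simp; ring

@[simp] lemma sm_apply (f : ℍ → ℂ) (F : X → ℍ → ℂ) (x : X) (z : ℍ) : sm f F x z = f z * F x z := rfl

lemma sm_mem {k l : ℤ} {f : ℍ → ℂ} {F : X → ℍ → ℂ} (hf : IsL1 k f) (hF : F ∈ VM X l) :
    sm f F ∈ VM X (k + l) := by
  refine mem_VM_of_apply (fun γ x z => ?_) (fun x => hf.holo.mul (VM.holo hF x))
    (fun x => hf.bdd.mul (VM.bdd hF x))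
  rw [sm_apply, sm_apply, hf.apply_smul, VM.apply_smul hF, zpow_add₀ (denom_ne_zero _ _)]
  ring

lemma mul_mem {k l : ℤ} {F G : X → ℍ → ℂ} (hF : F ∈ VM X k) (hG : G ∈ VM X l) :
    F * G ∈ VM X (k + l) := by
  refine mem_VM_of_apply (fun γ x z => ?_) (fun x => (VM.holo hF x).mul (VM.holo hG x))
    (fun x => (VM.bdd hF x).mul (VM.bdd hG x))
  simp only [Pi.mul_apply]
  rw [VM.apply_smul hF, VM.apply_smul hG, zpow_add₀ (denom_ne_zero _ _)]
  ring

lemma one_mem_VM : (1 : X → ℍ → ℂ) ∈ VM X 0 := by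
  refine mem_VM_of_apply (fun γ x z => by simp) (fun x => isL1_one.holo) (fun x => isL1_one.bdd)

/-- trace of the product -/
def tr [Fintype X] (F G : X → ℍ → ℂ) : ℍ → ℂ := fun z => ∑ x, F x z * G x z

lemma tr_isL1 [Fintype X] {k l : ℤ} {F G : X → ℍ → ℂ} (hF : F ∈ VM X k) (hG : G ∈ VM X l) :
    IsL1 (k + l) (tr F G) := by
  refine isL1_of_apply (fun γ z => ?_) ?_ ?_
  · unfold tr
    rw [← Equiv.sum_comp (MulAction.toPerm γ), Finset.mul_sum]
    refine Finset.sum_congr rfl fun x _ => ?_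
    simp only [MulAction.toPerm_apply]
    rw [VM.apply_smul hF, VM.apply_smul hG, zpow_add₀ (denom_ne_zero _ _)]
    ring
  · have : tr F G = ∑ x : X, F x * G x := by
      ext z; simp [tr]
    rw [this]
    refine .sum ?_
    intro x _
    exact (VM.holo hF x).mul (VM.holo hG x)
  · have : tr F G = ∑ x : X, F x * G x := by
      ext z; simp [tr]
    rw [this, IsBoundedAtImInfty, Filter.BoundedAtFilter, Finset.sum_fn]
    refine Asymptotics.IsBigO.fun_sum ?_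
    intro x _
    exact (VM.bdd hF x).mul (VM.bdd hG x)

end Fermat.Agent.DimS2
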