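import Fermat.Agent.DimS2.PowerSum
import Fermat.Agent.DimS2.Basic

set_option autoImplicit false
set_option linter.unusedSectionVars false

open UpperHalfPlane ModularForm MatrixGroups Matrix.SpecialLinearGroup Filter Matrix
open scoped Manifold Topology

noncomputable section

namespace Fermat.Agent.DimS2

open EisensteinSeries

/-- the coset space -/
abbrev Cos (N : ℕ) : Type := SL(2,ℤ) ⧸ CongruenceSubgroup.Gamma0 N

/-- second row mod `N` -/
def bot (N : ℕ) (g : SL(2,ℤ)) : Fin 2 → ZMod N := fun i => (g 1 i : ZMod N)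

/-- the classes mod `N` of second rows of inverses of elements of a coset -/
def rowSet (N : ℕ) (x : Cos N) : Set (Fin 2 → ZMod N) :=
  {a | ∃ g : SL(2,ℤ), (QuotientGroup.mk g : Cos N) = x ∧ a = bot N g⁻¹}

variable {N : ℕ}

/-- reduction of an integral matrix -/
def redM (N : ℕ) (g : SL(2,ℤ)) : Matrix (Fin 2) (Fin 2) (ZMod N) :=
  ((Matrix.SpecialLinearGroup.map (Int.castRingHom (ZMod N)) g : SL(2, ZMod N)) :
    Matrix (Fin 2) (Fin 2) (ZMod N))

lemma redM_mul (g h : SL(2,ℤ)) : redM N (g * h) = redM N g * redM N h := by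
  simp [redM]

lemma redM_one : redM N 1 = 1 := by simp [redM]

lemma bot_eq (g : SL(2,ℤ)) : bot N g = ![0, 1] ᵥ* redM N g := by
  ext i
  simp [bot, redM, Matrix.vecMul, dotProduct, Fin.sum_univ_two]

lemma bot_mul (g h : SL(2,ℤ)) : bot N (g * h) = bot N g ᵥ* redM N h := by
  rw [bot_eq, bot_eq, redM_mul, vecMul_vecMul]

/-- vecMul by the reduction of `γ` as a permutation -/
def vecEquiv (N : ℕ) (γ : SL(2,ℤ)) : (Fin 2 → ZMod N) ≃ (Fin 2 → ZMod N) where
  toFun a := a ᵥ* redM N γ
  invFun a := a ᵥ* redM N γ⁻¹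
  left_inv a := by
    change (a ᵥ* redM N γ) ᵥ* redM N γ⁻¹ = a
    rw [vecMul_vecMul, ← redM_mul, mul_inv_cancel, redM_one, vecMul_one]
  right_inv a := by
    change (a ᵥ* redM N γ⁻¹) ᵥ* redM N γ = a
    rw [vecMul_vecMul, ← redM_mul, inv_mul_cancel, redM_one, vecMul_one]

lemma vecEquiv_apply (γ : SL(2,ℤ)) (a : Fin 2 → ZMod N) : vecEquiv N γ a = a ᵥ* redM N γ := rfl

lemma mem_rowSet_smul (γ : SL(2,ℤ)) (x : Cos N) (a : Fin 2 → ZMod N) :
    a ∈ rowSet N (γ • x) ↔ vecEquiv N γ a ∈ rowSet N x := by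
  constructor
  · rintro ⟨g, hg, rfl⟩
    refine ⟨γ⁻¹ * g, ?_, ?_⟩
    · have : (QuotientGroup.mk (γ⁻¹ * g) : Cos N) = γ⁻¹ • (QuotientGroup.mk g : Cos N) := rfl
      rw [this, hg, inv_smul_smul]
    · rw [vecEquiv_apply, ← bot_mul]
      congr 1
      group
  · rintro ⟨g, hg, ha⟩
    refine ⟨γ * g, ?_, ?_⟩
    · rw [← hg]; rfl
    · rw [_root_.mul_inv_rev, bot_mul, ← ha, ← vecEquiv_apply]
      have : vecEquiv N γ⁻¹ = (vecEquiv N γ).symm := by
        ext a : 1
        rfl
      rw [this, Equiv.symm_apply_apply]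

open Classical in
/-- The `Γ₀(N)` Eisenstein series. -/
def eisF (N : ℕ) [NeZero N] (k : ℤ) (x : Cos N) : ℍ → ℂ :=
  ∑ a : Fin 2 → ZMod N, if a ∈ rowSet N x then eisensteinSeries a k else 0

lemma eisensteinSeries_slash' (a : Fin 2 → ZMod N) (k : ℤ) (γ : SL(2,ℤ)) :
    eisensteinSeries a k ∣[k] γ = eisensteinSeries (vecEquiv N γ a) k :=
  eisensteinSeries_slash_apply a k γ

variable [NeZero N]

lemma eisF_mem {k : ℤ} (hk : 3 ≤ k) : eisF N k ∈ VM (Cos N) k := by
  classical
  refine ⟨fun γ x => ?_, fun x => ?_, fun x => ?_⟩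
  · have h1 : (eisF N k (γ • x)) ∣[k] γ =
        ∑ a : Fin 2 → ZMod N, (if a ∈ rowSet N (γ • x) then eisensteinSeries a k else 0) ∣[k] γ := by
      unfold eisF
      have : ∀ s : Finset (Fin 2 → ZMod N), ∀ f : (Fin 2 → ZMod N) → (ℍ → ℂ),
          (∑ a ∈ s, f a) ∣[k] γ = ∑ a ∈ s, (f a) ∣[k] γ := by
        intro s f
        induction s using Finset.induction_on with
        | empty => simp
        | insert a s ha ih => rw [Finset.sum_insert ha, Finset.sum_insert ha,
            SlashAction.add_slash, ih]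
      exact this _ _
    rw [h1]
    unfold eisF
    rw [← Equiv.sum_comp (vecEquiv N γ) (fun b => if b ∈ rowSet N x then eisensteinSeries b k else 0)]
    refine Finset.sum_congr rfl fun a _ => ?_
    by_cases h : a ∈ rowSet N (γ • x)
    · rw [if_pos h, if_pos ((mem_rowSet_smul γ x a).mp h), eisensteinSeries_slash']
    · rw [if_neg h, if_neg (fun h' => h ((mem_rowSet_smul γ x a).mpr h')), SlashAction.zero_slash]
  · unfold eisF
    refine .sum ?_
    intro a _
    split_ifs
    · exact eisensteinSeriesSIF_mdifferentiable hk a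
    · exact mdifferentiable_const
  · unfold eisF
    rw [IsBoundedAtImInfty, Filter.BoundedAtFilter, Finset.sum_fn]
    refine Asymptotics.IsBigO.fun_sum ?_
    intro a _
    split_ifs
    · have := isBoundedAtImInfty_eisensteinSeriesSIF a hk 1
      rw [SlashAction.slash_one] at this
      exact this
    · exact Asymptotics.isBigO_zero _ _

open Classical in
/-- coefficients -/
def cf (x : Cos N) (v : Fin 2 → ℤ) : ℂ :=
  if (v 0).gcd (v 1) = 1 ∧ (fun i => (v i : ZMod N)) ∈ rowSet N x then 1 else 0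

lemma cf_summable (x : Cos N) {k : ℤ} (hk : 3 ≤ k) (z : ℍ) :
    Summable fun v => cf x v * eisSummand k v z := by
  refine Summable.of_norm_bounded (summable_norm_eisSummand hk z) fun v => ?_
  rw [norm_mul]
  unfold cf
  split_ifs
  · simp
  · simp

lemma eisF_apply {k : ℤ} (hk : 3 ≤ k) (x : Cos N) (z : ℍ) :
    eisF N k x z = ∑' v : Fin 2 → ℤ, cf x v * eisSummand k v z := by
  classical
  unfold eisF
  rw [Finset.sum_apply]
  have h1 : ∀ a : Fin 2 → ZMod N, (if a ∈ rowSet N x then eisensteinSeries a k else 0) z =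
      ∑' v : Fin 2 → ℤ, if a ∈ rowSet N x then
        (gammaSet N 1 a).indicator (fun v => eisSummand k v z) v else 0 := by
    intro a
    split_ifs with h
    · rw [← tsum_subtype]; rfl
    · simp
  rw [Finset.sum_congr rfl fun a _ => h1 a, ← Summable.tsum_finsetSum]
  · refine tsum_congr fun v => ?_
    unfold cf
    by_cases hv : (v 0).gcd (v 1) = 1
    · rw [Finset.sum_eq_single (fun i => (v i : ZMod N))]
      · simp only [hv, true_and]
        split_ifs with h
        · rw [Set.indicator_of_mem, one_mul]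
          exact ⟨rfl, hv⟩
        · simp
      · intro b _ hb
        split_ifs
        · rw [Set.indicator_of_notMem]
          rintro ⟨h, _⟩
          exact hb h.symm
        · rfl
      · intro h; exact absurd (Finset.mem_univ _) h
    · rw [if_neg (fun h => hv h.1), zero_mul]
      refine Finset.sum_eq_zero fun a _ => ?_
      split_ifs
      · rw [Set.indicator_of_notMem]
        rintro ⟨_, h⟩
        exact hv h
      · rfl
  · intro a _
    split_ifs
    · exact (summable_norm_eisSummand hk z).of_norm.indicator _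
    · exact summable_zero

lemma lin_inj (z : ℍ) : Function.Injective fun v : Fin 2 → ℤ => ((v 0 : ℂ) * z + v 1)⁻¹ := by
  intro v w h
  have h := inv_injective h
  have him := congrArg Complex.im h
  have h0 : v 0 = w 0 := by
    simp only [Complex.add_im, Complex.mul_im, Complex.intCast_re, Complex.intCast_im, zero_mul,
      add_zero] at him
    have := mul_right_cancel₀ z.im_pos.ne' him
    exact_mod_cast this
  rw [h0] at h
  have h1 : v 1 = w 1 := by exact_mod_cast add_left_cancel h
  ext i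
  fin_cases i
  · exact h0
  · exact h1

lemma exists_sep (z : ℍ) (x y : Cos N) (hxy : x ≠ y) : ∃ k, ∃ F ∈ VM (Cos N) k, F x z ≠ F y z := by
  by_contra hcon
  push Not at hcon
  obtain ⟨g, rfl⟩ := QuotientGroup.mk_surjective x
  have key := powerSum_eq_zero (fun v : Fin 2 → ℤ => ((v 0 : ℂ) * z + v 1)⁻¹) (lin_inj z)
    (fun v => cf (QuotientGroup.mk g : Cos N) v - cf y v) 3
    (fun k hk => by
      have h1 := cf_summable (QuotientGroup.mk g : Cos N) (k := k) (by exact_mod_cast hk) z
      have h2 := cf_summable y (k := k) (by exact_mod_cast hk) z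
      refine (h1.sub h2).congr fun v => ?_
      simp only [eisSummand, _root_.zpow_neg, zpow_natCast, inv_pow]
      ring)
    (fun k hk => by
      have hk' : (3 : ℤ) ≤ k := by exact_mod_cast hk
      have h1 := cf_summable (QuotientGroup.mk g : Cos N) hk' z
      have h2 := cf_summable y hk' z
      have h3 := hcon k _ (eisF_mem hk')
      rw [eisF_apply hk', eisF_apply hk'] at h3
      rw [← sub_eq_zero, ← h1.tsum_sub h2] at h3
      rw [← h3]
      refine tsum_congr fun v => ?_
      simp only [eisSummand, _root_.zpow_neg, zpow_natCast, inv_pow]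
      ring)
    (fun ε hε => by
      have h1 := (summable_norm_eisSummand (le_refl 3) z).tendsto_cofinite_zero
      have h2 := h1.eventually (gt_mem_nhds (show (0:ℝ) < ε ^ 3 by positivity))
      rw [Filter.eventually_cofinite] at h2
      refine h2.subset ?_
      rintro v ⟨_, hv⟩
      simp only [Set.mem_ofPred_eq, not_lt, eisSummand]
      rw [_root_.zpow_neg, ← _root_.inv_zpow, norm_zpow]
      exact pow_le_pow_left₀ hε.le hv 3)
    (fun i => (g⁻¹ : SL(2,ℤ)) 1 i) (by
      apply inv_ne_zero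
      have := denom_ne_zero (g⁻¹ : SL(2,ℤ)) z
      rw [ModularGroup.denom_apply] at this
      exact this)
  have h1 : cf (QuotientGroup.mk g : Cos N) (fun i => (g⁻¹ : SL(2,ℤ)) 1 i) = 1 := by
    unfold cf
    rw [if_pos]
    refine ⟨?_, g, rfl, rfl⟩
    rw [← Int.isCoprime_iff_gcd_eq_one]
    refine ⟨-(g⁻¹ : SL(2,ℤ)) 0 1, (g⁻¹ : SL(2,ℤ)) 0 0, ?_⟩
    have := (g⁻¹ : SL(2,ℤ)).det_coe
    rw [Matrix.det_fin_two] at this
    linear_combination this
  have h2 : cf y (fun i => (g⁻¹ : SL(2,ℤ)) 1 i) = 0 := by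
    unfold cf
    rw [if_neg]
    rintro ⟨-, h, rfl, hh⟩
    apply hxy
    change bot N g⁻¹ = bot N h⁻¹ at hh
    rw [QuotientGroup.eq]
    have h3 : bot N (g⁻¹ * h) = bot N 1 := by
      rw [bot_mul, hh, ← bot_mul]; simp
    rw [CongruenceSubgroup.Gamma0_mem]
    have := congrFun h3 0
    simpa [bot] using this
  simp only [h1, h2] at key
  norm_num at key

end Fermat.Agent.DimS2
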