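import Fermat.Agent.DimS2.Dual

set_option autoImplicit false
set_option linter.unusedSectionVars false

open UpperHalfPlane ModularForm MatrixGroups Matrix.SpecialLinearGroup Filter Function
open scoped Manifold Topology Real
open Module Submodule

noncomputable section

namespace Fermat.Agent.DimS2

variable {X : Type} [MulAction SL(2,ℤ) X] [Fintype X] {N : ℕ}

/-! ### level one dimensions -/

lemma finrank_M_neg {k : ℤ} (hk : k < 0) : finrank ℂ (ModularForm 𝒮ℒ k) = 0 := by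
  have := ModularForm.levelOne_neg_weight_rank_zero hk
  exact Module.finrank_eq_of_rank_eq (n := 0) (by simpa using this)

lemma finrank_M (k : ℕ) (hk : Even k) :
    finrank ℂ (ModularForm 𝒮ℒ (k : ℤ)) = if k % 12 = 2 then k / 12 else k / 12 + 1 := by
  have h := ModularForm.dimension_level_one k hk
  have h2 := Module.finrank_eq_of_rank_eq h
  rw [h2]
  rfl

lemma finrank_S (k : ℤ) : finrank ℂ (CuspForm 𝒮ℒ k) = finrank ℂ (ModularForm 𝒮ℒ (k - 12)) :=
  CuspForm.discriminantEquiv.finrank_eq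

namespace Frame

variable (𝓕 : Frame X N)

lemma w_even (h : Good X N) (j : 𝓕.J) : Even (𝓕.w j) := by
  rw [← Nat.not_odd_iff_even]
  intro ho
  have h1 := h.odd (𝓕.w j) (by exact_mod_cast ho)
  have h2 := 𝓕.mem j
  rw [h1] at h2
  have h3 := (𝓕.linInd h UpperHalfPlane.I).ne_zero j
  apply h3
  ext x
  rw [(Submodule.mem_bot ℂ).mp h2]; rfl

lemma VS_zero (h : Good X N) (l : ℤ) (hl : l ≤ 0) : finrank ℂ (VS X l) = 0 := by
  have hle : VS X l = ⊥ := by
    rw [eq_bot_iff]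
    intro F hF
    rcases hl.lt_or_eq with hl | rfl
    · rw [← h.neg l hl]; exact hF.1
    · -- weight zero
      have h1 := (finrank_eq_one_iff_of_nonzero' (⟨1, one_mem_VM⟩ : VM X 0) (by
        intro h0
        have h2 := h.rank0
        have h3 : ∀ x : X, False := by
          intro x
          have := congrFun (congrFun (congrArg Subtype.val h0) x) UpperHalfPlane.I
          simp at this
        have : IsEmpty X := ⟨fun x => h3 x⟩
        have : Subsingleton (VM X 0) := ⟨fun a b => Subtype.ext (by ext x; exact (h3 x).elim)⟩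
        rw [finrank_zero_of_subsingleton] at h2
        exact absurd h2 (by norm_num))).mp h.rank0
      obtain ⟨c, hc⟩ := h1 ⟨F, hF.1⟩
      have hF' : F = c • (1 : X → ℍ → ℂ) := (congrArg Subtype.val hc).symm
      rw [Submodule.mem_bot]
      ext x z
      have h4 := hF.2 x
      have h5 : Tendsto (F x) atImInfty (𝓝 c) := by
        have : F x = fun _ => c := by rw [hF']; ext z; simp
        rw [this]; exact tendsto_const_nhds
      have h6 := tendsto_nhds_unique h4 h5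
      rw [hF', ← h6]; simp
  rw [hle]; simp

lemma w_lt (h : Good X N) (j : 𝓕.J) : 𝓕.w j < 12 := by
  by_contra hj
  push Not at hj
  have h1 := 𝓕.s_eq h (12 - 𝓕.w j)
  rw [VS_zero h _ (by omega)] at h1
  have h2 := (Finset.sum_eq_zero_iff.mp h1.symm) j (Finset.mem_univ _)
  rw [show (12 : ℤ) - 𝓕.w j + 𝓕.w j = 12 by ring,
    Module.finrank_eq_of_rank_eq (n := 1) (by simpa using CuspForm.rank_eq_one_of_weight_eq_twelve)]
    at h2
  exact absurd h2 (by norm_num)

lemma w_mem (h : Good X N) (j : 𝓕.J) : 𝓕.w j ∈ ({0, 2, 4, 6, 8, 10} : Finset ℕ) := by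
  have h1 := 𝓕.w_lt h j
  have h2 := 𝓕.w_even h j
  obtain ⟨m, hm⟩ := h2
  simp only [Finset.mem_insert, Finset.mem_singleton]
  omega

/-- number of generators of weight `κ` -/
def n (κ : ℕ) : ℕ := (Finset.univ.filter fun j => 𝓕.w j = κ).card

lemma sum_w (h : Good X N) {M : Type*} [AddCommMonoid M] (f : ℕ → M) :
    ∑ j, f (𝓕.w j) = 𝓕.n 0 • f 0 + 𝓕.n 2 • f 2 + 𝓕.n 4 • f 4 + 𝓕.n 6 • f 6 + 𝓕.n 8 • f 8 +
      𝓕.n 10 • f 10 := by
  rw [← Finset.sum_fiberwise_of_maps_to (fun j _ => 𝓕.w_mem h j)]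
  have h1 : ∀ κ : ℕ, ∑ j ∈ Finset.univ.filter (fun j => 𝓕.w j = κ), f (𝓕.w j) = 𝓕.n κ • f κ := by
    intro κ
    rw [Finset.sum_congr rfl (g := fun _ => f κ), Finset.sum_const]
    · rfl
    · intro j hj
      rw [(Finset.mem_filter.mp hj).2]
  simp only [h1]
  rw [Finset.sum_insert (by decide), Finset.sum_insert (by decide), Finset.sum_insert (by decide),
    Finset.sum_insert (by decide), Finset.sum_insert (by decide), Finset.sum_singleton]
  simp only [add_assoc]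

lemma n_total (h : Good X N) :
    𝓕.n 0 + 𝓕.n 2 + 𝓕.n 4 + 𝓕.n 6 + 𝓕.n 8 + 𝓕.n 10 = Fintype.card X := by
  have := 𝓕.sum_w h (fun _ => 1)
  simp only [Finset.sum_const, Finset.card_univ, smul_eq_mul, mul_one] at this
  rw [← this, 𝓕.card]

lemma n_zero (h : Good X N) : 𝓕.n 0 = 1 := by
  have h1 := 𝓕.d_eq h 0
  rw [d, h.rank0, 𝓕.sum_w h (fun κ => finrank ℂ (ModularForm 𝒮ℒ ((0:ℤ) - (κ : ℕ))))] at h1
  have h2 : finrank ℂ (ModularForm 𝒮ℒ ((0:ℤ) - (0 : ℕ))) = 1 := finrank_M 0 (by decide)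
  rw [h2, finrank_M_neg (by norm_num), finrank_M_neg (by norm_num), finrank_M_neg (by norm_num),
    finrank_M_neg (by norm_num), finrank_M_neg (by norm_num)] at h1
  simpa using h1.symm

lemma s_two (h : Good X N) : finrank ℂ (VS X 2) = 𝓕.n 10 := by
  rw [𝓕.s_eq h 2, 𝓕.sum_w h (fun κ => finrank ℂ (CuspForm 𝒮ℒ ((2:ℤ) + (κ : ℕ))))]
  simp only [finrank_S]
  rw [finrank_M_neg (by norm_num), finrank_M_neg (by norm_num), finrank_M_neg (by norm_num),
    finrank_M_neg (by norm_num), finrank_M_neg (by norm_num)]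
  have h2 : finrank ℂ (ModularForm 𝒮ℒ ((2:ℤ) + (10 : ℕ) - 12)) = 1 := finrank_M 0 (by decide)
  rw [h2]; simp

lemma d_large (h : Good X N) (t : ℕ) : d X (12 * (t + 1 : ℕ)) =
    𝓕.n 0 * (t + 2) + 𝓕.n 2 * (t + 1) + 𝓕.n 4 * (t + 1) + 𝓕.n 6 * (t + 1) + 𝓕.n 8 * (t + 1) +
      𝓕.n 10 * t := by
  rw [𝓕.d_eq h, 𝓕.sum_w h (fun κ => finrank ℂ (ModularForm 𝒮ℒ (12 * ((t + 1 : ℕ) : ℤ) - (κ : ℕ))))]
  have e : ∀ κ : ℕ, κ ≤ 12 → (12 * ((t + 1 : ℕ) : ℤ) - (κ : ℕ)) = ((12 * t + (12 - κ) : ℕ) : ℤ) := by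
    intro κ hκ; push_cast [hκ]; ring
  rw [e 0 (by norm_num), e 2 (by norm_num), e 4 (by norm_num), e 6 (by norm_num),
    e 8 (by norm_num), e 10 (by norm_num)]
  rw [finrank_M _ ⟨6 * t + 6, by ring⟩, finrank_M _ ⟨6 * t + 5, by ring⟩,
    finrank_M _ ⟨6 * t + 4, by ring⟩, finrank_M _ ⟨6 * t + 3, by ring⟩,
    finrank_M _ ⟨6 * t + 2, by ring⟩, finrank_M _ ⟨6 * t + 1, by ring⟩]
  rw [if_neg (by omega), if_neg (by omega), if_neg (by omega), if_neg (by omega),
    if_neg (by omega), if_pos (by omega)]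
  rw [show (12 * t + (12 - 0)) / 12 + 1 = t + 2 by omega,
    show (12 * t + (12 - 2)) / 12 + 1 = t + 1 by omega,
    show (12 * t + (12 - 4)) / 12 + 1 = t + 1 by omega,
    show (12 * t + (12 - 6)) / 12 + 1 = t + 1 by omega,
    show (12 * t + (12 - 8)) / 12 + 1 = t + 1 by omega,
    show (12 * t + (12 - 10)) / 12 = t by omega]
  simp only [smul_eq_mul]

lemma s_large (h : Good X N) (t : ℕ) : finrank ℂ (VS X (12 * (t + 1 : ℕ))) =
    𝓕.n 0 * (t + 1) + 𝓕.n 2 * t + 𝓕.n 4 * (t + 1) + 𝓕.n 6 * (t + 1) + 𝓕.n 8 * (t + 1) +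
      𝓕.n 10 * (t + 1) := by
  rw [𝓕.s_eq h, 𝓕.sum_w h (fun κ => finrank ℂ (CuspForm 𝒮ℒ (12 * ((t + 1 : ℕ) : ℤ) + (κ : ℕ))))]
  simp only [finrank_S]
  have e : ∀ κ : ℕ, (12 * ((t + 1 : ℕ) : ℤ) + (κ : ℕ) - 12) = ((12 * t + κ : ℕ) : ℤ) := by
    intro κ; push_cast; ring
  rw [e 0, e 2, e 4, e 6, e 8, e 10]
  rw [finrank_M _ ⟨6 * t, by ring⟩, finrank_M _ ⟨6 * t + 1, by ring⟩,
    finrank_M _ ⟨6 * t + 2, by ring⟩, finrank_M _ ⟨6 * t + 3, by ring⟩,
    finrank_M _ ⟨6 * t + 4, by ring⟩, finrank_M _ ⟨6 * t + 5, by ring⟩]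
  rw [if_neg (by omega), if_pos (by omega), if_neg (by omega), if_neg (by omega),
    if_neg (by omega), if_neg (by omega)]
  rw [show (12 * t + 0) / 12 + 1 = t + 1 by omega,
    show (12 * t + 2) / 12 = t by omega,
    show (12 * t + 4) / 12 + 1 = t + 1 by omega,
    show (12 * t + 6) / 12 + 1 = t + 1 by omega,
    show (12 * t + 8) / 12 + 1 = t + 1 by omega,
    show (12 * t + 10) / 12 + 1 = t + 1 by omega]
  simp only [smul_eq_mul]

end Frame

/-! ### cusps -/

variable (X) in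
/-- functions invariant under `T` -/
def Tinv : Submodule ℂ (X → ℂ) where
  carrier := {v | ∀ x, v (ModularGroup.T • x) = v x}
  add_mem' := fun h1 h2 x => by simp [h1 x, h2 x]
  zero_mem' := fun x => rfl
  smul_mem' := fun c v h x => by simp [h x]

lemma Tinv_zpow {v : X → ℂ} (hv : v ∈ Tinv X) (n : ℤ) (x : X) : v (ModularGroup.T ^ n • x) = v x := by
  induction n using Int.induction_on generalizing x with
  | zero => simp
  | succ n ih => rw [zpow_add_one, mul_smul, ih, hv x]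
  | pred n ih =>
    rw [zpow_sub_one, mul_smul, ih]
    have := hv (ModularGroup.T⁻¹ • x)
    rw [smul_inv_smul] at this
    exact this.symm

lemma finrank_Tinv : finrank ℂ (Tinv X) =
    Nat.card (MulAction.orbitRel.Quotient (Subgroup.zpowers ModularGroup.T) X) := by
  classical
  let e : (MulAction.orbitRel.Quotient (Subgroup.zpowers ModularGroup.T) X → ℂ) ≃ₗ[ℂ] Tinv X :=
    { toFun := fun g => ⟨fun x => g (Quotient.mk'' x), fun x => by
        refine congrArg g (Quotient.sound' ?_)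
        exact ⟨⟨ModularGroup.T, Subgroup.mem_zpowers _⟩, rfl⟩⟩
      invFun := fun v q => Quotient.liftOn' q v.1 (by
        rintro a b ⟨⟨g, n, rfl⟩, rfl⟩
        exact Tinv_zpow v.2 n b)
      map_add' := fun _ _ => rfl
      map_smul' := fun _ _ => rfl
      left_inv := fun g => by
        ext q
        induction q using Quotient.inductionOn' with | _ x => rfl
      right_inv := fun v => by
        ext x; rfl }
  rw [← e.finrank_eq]
  have : Finite (MulAction.orbitRel.Quotient (Subgroup.zpowers ModularGroup.T) X) :=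
    Quotient.finite _
  have := Fintype.ofFinite (MulAction.orbitRel.Quotient (Subgroup.zpowers ModularGroup.T) X)
  rw [Module.finrank_pi, Nat.card_eq_fintype_card]

lemma cusp_count (h : Good X N) (𝓕 : Frame X N) (k : ℤ) (hk : Even k) (hk2 : 𝓕.K₀ + 6 ≤ k) :
    d X k = finrank ℂ (Tinv X) + finrank ℂ (VS X k) := by
  have hN := h.hN
  have hT := h.hT
  have hN' : (0:ℝ) < N := by exact_mod_cast h.hN
  have hs := jet_surj h 𝓕 k hk hk2
  have := fin h k
  let c0 : VM X k →ₗ[ℂ] (X → ℂ) :=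
    { toFun := fun F => co N 0 F.1
      map_add' := fun F G => co_add hN hT F.2 G.2 0
      map_smul' := fun c F => co_smul hN hT F.2 c 0 }
  have hker : LinearMap.ker c0 = (VS X k).comap (VM X k).subtype := by
    ext F
    rw [LinearMap.mem_ker, Submodule.mem_comap]
    constructor
    · intro h0
      exact ⟨F.2, fun x => ((VM.perN hT F.2 x).isZero_iff hN').mpr (congrFun h0 x)⟩
    · intro h0
      ext x
      exact ((VM.perN hT F.2 x).isZero_iff hN').mp (h0.2 x)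
  have hrange : LinearMap.range c0 = Tinv X := by
    apply le_antisymm
    · rintro _ ⟨F, rfl⟩ x
      have := co_T hN hT F.2 0 x
      change co N 0 F.1 (ModularGroup.T • x) = co N 0 F.1 x
      simpa using this.symm
    · intro v hv
      obtain ⟨F, hF⟩ := hs v
      refine ⟨F, ?_⟩
      have h1 : ∑ i ∈ Finset.range N, (if i = 0 then co N 0 F.1 - v else co N i F.1) = 0 := by
        have h2 : ∑ i ∈ Finset.range N, co N i F.1 = v := hF
        have h3 : ∑ i ∈ Finset.range N, (if i = 0 then co N 0 F.1 - v else co N i F.1) =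
            ∑ i ∈ Finset.range N, (co N i F.1 - if i = 0 then v else 0) := by
          refine Finset.sum_congr rfl fun i _ => ?_
          split_ifs with h0
          · rw [h0]
          · rw [sub_zero]
        rw [h3, Finset.sum_sub_distrib, h2, Finset.sum_ite_eq' (Finset.range N) 0 (fun _ => v),
          if_pos (Finset.mem_range.mpr hN), sub_self]
      have h4 := eig_indep (Finset.range N) (fun n => zt N ^ n) (by
        intro a ha b hb hab
        exact zt_pow_inj hN (by simpa using ha) (by simpa using hb) hab)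
        (fun i => if i = 0 then co N 0 F.1 - v else co N i F.1) (by
          intro i _ x
          by_cases hi : i = 0
          · subst hi
            have h5 := co_T hN hT F.2 0 x
            have h6 := hv x
            simp only [if_true, Pi.sub_apply, pow_zero, one_mul] at h5 ⊢
            rw [h5, h6]
          · simp only [if_neg hi]
            exact co_T hN hT F.2 i x) h1 0 (Finset.mem_range.mpr hN)
      simp only [if_true] at h4
      exact sub_eq_zero.mp h4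
  have h1 := LinearMap.finrank_range_add_finrank_ker c0
  rw [hker, hrange] at h1
  have hle : VS X k ≤ VM X k := fun F hF => hF.1
  rw [(Submodule.comapSubtypeEquivOfLe hle).finrank_eq] at h1
  exact h1.symm

lemma cusp_eq (h : Good X N) (𝓕 : Frame X N) : 𝓕.n 0 + 𝓕.n 2 =
    Nat.card (MulAction.orbitRel.Quotient (Subgroup.zpowers ModularGroup.T) X) + 𝓕.n 10 := by
  have h1 := cusp_count h 𝓕 (12 * ((𝓕.K₀ + 1 : ℕ) : ℤ)) (by
    exact Even.mul_right (by decide) _) (by push_cast; omega)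
  rw [𝓕.d_large h, 𝓕.s_large h, finrank_Tinv] at h1
  nlinarith

/-! ### traces -/

lemma trace_perm (g : SL(2,ℤ)) :
    LinearMap.trace ℂ (X → ℂ) (LinearMap.funLeft ℂ ℂ (fun x : X => g • x)) =
      (Nat.card {x : X // g • x = x} : ℂ) := by
  classical
  rw [LinearMap.trace_eq_matrix_trace ℂ (Pi.basisFun ℂ X), Matrix.trace]
  simp only [Matrix.diag_apply, LinearMap.toMatrix_apply, Pi.basisFun_apply, Pi.basisFun_repr,
    LinearMap.funLeft_apply, Pi.single_apply]
  rw [Finset.sum_boole, Nat.card_eq_fintype_card, Fintype.card_subtype]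

lemma trace_frame (h : Good X N) (𝓕 : Frame X N) (g : SL(2,ℤ)) (z : ℍ) (hz : g • z = z) :
    LinearMap.trace ℂ (X → ℂ) (LinearMap.funLeft ℂ ℂ (fun x : X => g • x)) =
      ∑ j, denom g z ^ 𝓕.w j := by
  rw [LinearMap.trace_eq_matrix_trace ℂ (𝓕.basis h z), Matrix.trace]
  refine Finset.sum_congr rfl fun j _ => ?_
  rw [Matrix.diag_apply, LinearMap.toMatrix_apply]
  have h1 : (LinearMap.funLeft ℂ ℂ (fun x : X => g • x)) (𝓕.basis h z j) =
      denom g z ^ 𝓕.w j • 𝓕.basis h z j := by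
    ext x
    rw [LinearMap.funLeft_apply, 𝓕.basis_apply, Pi.smul_apply, 𝓕.basis_apply]
    have := VM.apply_smul (𝓕.mem j) g x z
    rw [hz, zpow_natCast] at this
    exact this
  rw [h1]
  simp

lemma trace_eq (h : Good X N) (𝓕 : Frame X N) (g : SL(2,ℤ)) (z : ℍ) (hz : g • z = z) :
    (Nat.card {x : X // g • x = x} : ℂ) = 𝓕.n 0 + 𝓕.n 2 * denom g z ^ 2 + 𝓕.n 4 * denom g z ^ 4
      + 𝓕.n 6 * denom g z ^ 6 + 𝓕.n 8 * denom g z ^ 8 + 𝓕.n 10 * denom g z ^ 10 := by
  rw [← trace_perm, trace_frame h 𝓕 g z hz, 𝓕.sum_w h (fun κ => denom g z ^ κ)]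
  simp

lemma S_eq (h : Good X N) (𝓕 : Frame X N) :
    Nat.card {x : X // ModularGroup.S • x = x} + (𝓕.n 2 + 𝓕.n 6 + 𝓕.n 10) =
      𝓕.n 0 + 𝓕.n 4 + 𝓕.n 8 := by
  have hz : ModularGroup.S • UpperHalfPlane.I = UpperHalfPlane.I := by
    rw [modular_S_smul]
    ext
    simp
  have h1 := trace_eq h 𝓕 ModularGroup.S UpperHalfPlane.I hz
  rw [ModularGroup.denom_S, UpperHalfPlane.coe_I] at h1
  have e2 : Complex.I ^ 2 = -1 := Complex.I_sq
  have e4 : Complex.I ^ 4 = 1 := Complex.I_pow_four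
  have e6 : Complex.I ^ 6 = -1 := by
    rw [show (6:ℕ) = 4 + 2 by norm_num, pow_add, e4, e2]; ring
  have e8 : Complex.I ^ 8 = 1 := by
    rw [show (8:ℕ) = 4 + 4 by norm_num, pow_add, e4]; ring
  have e10 : Complex.I ^ 10 = -1 := by
    rw [show (10:ℕ) = 4 + 4 + 2 by norm_num, pow_add, pow_add, e4, e2]; ring
  rw [e2, e4, e6, e8, e10] at h1
  have h2 : ((Nat.card {x : X // ModularGroup.S • x = x} + (𝓕.n 2 + 𝓕.n 6 + 𝓕.n 10) : ℕ) : ℂ) =
      ((𝓕.n 0 + 𝓕.n 4 + 𝓕.n 8 : ℕ) : ℂ) := by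
    push_cast
    rw [h1]; ring
  exact_mod_cast h2

/-- the point `ρ` -/
def rho : ℍ := ⟨⟨-1/2, Real.sqrt 3 / 2⟩, by simp⟩

lemma rho_eq : (rho : ℂ) ^ 2 + rho + 1 = 0 := by
  have h3 : Real.sqrt 3 * Real.sqrt 3 = 3 := Real.mul_self_sqrt (by norm_num)
  apply Complex.ext
  · simp [rho, pow_two]
    nlinarith
  · simp [rho, pow_two]
    ring

lemma ST_eq (h : Good X N) (𝓕 : Frame X N) :
    Nat.card {x : X // (ModularGroup.S * ModularGroup.T) • x = x} + (𝓕.n 2 + 𝓕.n 8) =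
      𝓕.n 0 + 𝓕.n 6 ∧ 𝓕.n 2 + 𝓕.n 8 = 𝓕.n 4 + 𝓕.n 10 := by
  have hr := rho_eq
  have hr0 : (rho : ℂ) + 1 ≠ 0 := by
    intro h0
    have : (rho : ℂ) * (rho + 1) + 1 = 0 := by linear_combination hr
    rw [h0] at this; simp at this
  have hz : (ModularGroup.S * ModularGroup.T) • rho = rho := by
    rw [mul_smul, modular_T_smul, modular_S_smul]
    ext
    simp only [UpperHalfPlane.coe_vadd]
    push_cast
    apply inv_eq_of_mul_eq_one_right
    linear_combination -hr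
  have h1 := trace_eq h 𝓕 (ModularGroup.S * ModularGroup.T) rho hz
  have hd : denom ((ModularGroup.S * ModularGroup.T : SL(2,ℤ)) : GL (Fin 2) ℝ) rho = rho + 1 := by
    rw [ModularGroup.denom_apply]
    have h10 : (ModularGroup.S * ModularGroup.T : SL(2,ℤ)) 1 0 = 1 := by decide
    have h11 : (ModularGroup.S * ModularGroup.T : SL(2,ℤ)) 1 1 = 1 := by decide
    rw [h10, h11]
    simp
  rw [hd] at h1
  have e2 : ((rho : ℂ) + 1) ^ 2 = rho := by linear_combination hr
  have e4 : ((rho : ℂ) + 1) ^ 4 = -1 - rho := by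
    rw [show (4:ℕ) = 2 * 2 by norm_num, pow_mul, e2]; linear_combination hr
  have e6 : ((rho : ℂ) + 1) ^ 6 = 1 := by
    rw [show (6:ℕ) = 2 * 3 by norm_num, pow_mul, e2]
    linear_combination ((rho : ℂ) - 1) * hr
  have e8 : ((rho : ℂ) + 1) ^ 8 = rho := by
    rw [show (8:ℕ) = 6 + 2 by norm_num, pow_add, e6, e2]; ring
  have e10 : ((rho : ℂ) + 1) ^ 10 = -1 - rho := by
    rw [show (10:ℕ) = 6 + 4 by norm_num, pow_add, e6, e4]; ring
  rw [e2, e4, e6, e8, e10] at h1
  have hre := congrArg Complex.re h1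
  have him := congrArg Complex.im h1
  have r1 : (rho : ℂ).re = -1/2 := rfl
  have r2 : (rho : ℂ).im = Real.sqrt 3 / 2 := rfl
  simp only [Complex.add_re, Complex.add_im, Complex.mul_re, Complex.mul_im, Complex.natCast_re,
    Complex.natCast_im, Complex.sub_re, Complex.sub_im, Complex.neg_re, Complex.neg_im,
    Complex.one_re, Complex.one_im, r1, r2] at hre him
  have hs : Real.sqrt 3 ≠ 0 := by positivity
  have him2 : Real.sqrt 3 * ((𝓕.n 2 + 𝓕.n 8 : ℝ) - (𝓕.n 4 + 𝓕.n 10)) = 0 := by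
    linear_combination -2 * him
  have him3 : (𝓕.n 2 + 𝓕.n 8 : ℝ) = 𝓕.n 4 + 𝓕.n 10 := by
    rcases mul_eq_zero.mp him2 with h | h
    · exact absurd h hs
    · linarith
  have h5 : 𝓕.n 2 + 𝓕.n 8 = 𝓕.n 4 + 𝓕.n 10 := by exact_mod_cast him3
  refine ⟨?_, h5⟩
  have h6 : ((Nat.card {x : X // (ModularGroup.S * ModularGroup.T) • x = x} + (𝓕.n 2 + 𝓕.n 8) : ℕ)
      : ℝ) = ((𝓕.n 0 + 𝓕.n 6 : ℕ) : ℝ) := by
    push_cast
    linarith
  exact_mod_cast h6

/-- The dimension formula for weight two cusp forms. -/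
theorem finrank_VS_two (h : Good X N) :
    (finrank ℂ (VS X 2) : ℚ) = 1 + (Fintype.card X : ℚ) / 12
      - (Nat.card {x : X // ModularGroup.S • x = x} : ℚ) / 4
      - (Nat.card {x : X // (ModularGroup.S * ModularGroup.T) • x = x} : ℚ) / 3
      - (Nat.card (MulAction.orbitRel.Quotient (Subgroup.zpowers ModularGroup.T) X) : ℚ) / 2 := by
  obtain ⟨𝓕⟩ := exists_frame h
  rw [𝓕.s_two h]
  have h1 := 𝓕.n_total h
  have h2 := 𝓕.n_zero h
  have h3 := S_eq h 𝓕
  obtain ⟨h4, h5⟩ := ST_eq h 𝓕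
  have h6 := cusp_eq h 𝓕
  rw [h2] at h1 h3 h4 h6
  have h1' : (1 : ℚ) + 𝓕.n 2 + 𝓕.n 4 + 𝓕.n 6 + 𝓕.n 8 + 𝓕.n 10 = Fintype.card X := by
    exact_mod_cast h1
  have h3' : (Nat.card {x : X // ModularGroup.S • x = x} : ℚ) + (𝓕.n 2 + 𝓕.n 6 + 𝓕.n 10) =
      1 + 𝓕.n 4 + 𝓕.n 8 := by exact_mod_cast h3
  have h4' : (Nat.card {x : X // (ModularGroup.S * ModularGroup.T) • x = x} : ℚ) +
      (𝓕.n 2 + 𝓕.n 8) = 1 + 𝓕.n 6 := by exact_mod_cast h4
  have h5' : (𝓕.n 2 : ℚ) + 𝓕.n 8 = 𝓕.n 4 + 𝓕.n 10 := by exact_mod_cast h5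
  have h6' : (1 : ℚ) + 𝓕.n 2 =
    Nat.card (MulAction.orbitRel.Quotient (Subgroup.zpowers ModularGroup.T) X) + 𝓕.n 10 := by
    exact_mod_cast h6
  linarith

end Fermat.Agent.DimS2
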