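import Fermat.Agent.DimS2.Eis
import Fermat.Agent.DimS2.Count

set_option autoImplicit false
set_option linter.unusedSectionVars false

open UpperHalfPlane ModularForm MatrixGroups Matrix.SpecialLinearGroup Filter
open scoped Manifold Topology

noncomputable section

namespace Fermat.Agent.DimS2

variable {N : ℕ}

lemma smul_mk_one {γ : SL(2,ℤ)} (hγ : γ ∈ CongruenceSubgroup.Gamma0 N) :
    γ • (QuotientGroup.mk 1 : Cos N) = QuotientGroup.mk 1 := by
  have : γ • (QuotientGroup.mk 1 : Cos N) = QuotientGroup.mk (γ * 1) := rfl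
  rw [this, mul_one, QuotientGroup.eq]
  simpa using hγ

lemma smul_mk_one' (g : SL(2,ℤ)) :
    g • (QuotientGroup.mk 1 : Cos N) = QuotientGroup.mk g := by
  have : g • (QuotientGroup.mk 1 : Cos N) = QuotientGroup.mk (g * 1) := rfl
  rw [this, mul_one]

lemma VM.mk_eq {k : ℤ} {F : Cos N → ℍ → ℂ} (hF : F ∈ VM (Cos N) k) (g : SL(2,ℤ)) :
    F (QuotientGroup.mk g) = F (QuotientGroup.mk 1) ∣[k] g⁻¹ := by
  rw [← VM.slash hF g (QuotientGroup.mk 1), ← SlashAction.slash_mul, mul_inv_cancel,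
    SlashAction.slash_one, smul_mk_one']

variable [NeZero N]

/-- the value at the trivial coset is a modular form -/
def VM.toMF {k : ℤ} {F : Cos N → ℍ → ℂ} (hF : F ∈ VM (Cos N) k) :
    ModularForm (CongruenceSubgroup.Gamma0 N) k where
  toFun := F (QuotientGroup.mk 1)
  slash_action_eq' := by
    rintro _ ⟨γ, hγ, rfl⟩
    have := VM.slash hF γ (QuotientGroup.mk 1)
    rw [smul_mk_one hγ] at this
    exact this
  holo' := VM.holo hF _
  bdd_at_cusps' := by
    intro c hc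
    rw [Subgroup.IsArithmetic.isCusp_iff_isCusp_SL2Z] at hc
    rw [OnePoint.isBoundedAt_iff_forall_SL2Z hc]
    intro γ _
    have h := VM.mk_eq hF γ⁻¹
    rw [inv_inv] at h
    rw [← h]
    exact VM.bdd hF _

/-- the value at the trivial coset is a cusp form -/
def VS.toCF {k : ℤ} {F : Cos N → ℍ → ℂ} (hF : F ∈ VS (Cos N) k) :
    CuspForm (CongruenceSubgroup.Gamma0 N) k where
  toFun := F (QuotientGroup.mk 1)
  slash_action_eq' := (VM.toMF hF.1).slash_action_eq'
  holo' := VM.holo hF.1 _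
  zero_at_cusps' := by
    intro c hc
    rw [Subgroup.IsArithmetic.isCusp_iff_isCusp_SL2Z] at hc
    rw [OnePoint.isZeroAt_iff_forall_SL2Z hc]
    intro γ _
    have h := VM.mk_eq hF.1 γ⁻¹
    rw [inv_inv] at h
    rw [← h]
    exact hF.2 _

/-- the function on cosets attached to a `Γ₀(N)`-invariant function -/
def ofInv {k : ℤ} (f : ℍ → ℂ) (hf : ∀ γ ∈ CongruenceSubgroup.Gamma0 N, f ∣[k] γ = f) :
    Cos N → ℍ → ℂ := fun x => Quotient.liftOn' x (fun g => f ∣[k] g⁻¹) (by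
      intro a b hab
      rw [QuotientGroup.leftRel_apply] at hab
      have h : a⁻¹ = (a⁻¹ * b) * b⁻¹ := by group
      rw [h, SlashAction.slash_mul, hf _ hab])

@[simp] lemma ofInv_mk {k : ℤ} (f : ℍ → ℂ)
    (hf : ∀ γ ∈ CongruenceSubgroup.Gamma0 N, f ∣[k] γ = f) (g : SL(2,ℤ)) :
    ofInv f hf (QuotientGroup.mk g) = f ∣[k] g⁻¹ := rfl

lemma ofInv_mem {k : ℤ} (f : ModularForm (CongruenceSubgroup.Gamma0 N) k) :
    ofInv (N := N) (k := k) (⇑f) (fun γ hγ => f.slash_action_eq' _ ⟨γ, hγ, rfl⟩) ∈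
      VM (Cos N) k := by
  refine ⟨fun γ x => ?_, fun x => ?_, fun x => ?_⟩
  · obtain ⟨g, rfl⟩ := QuotientGroup.mk_surjective x
    have : γ • (QuotientGroup.mk g : Cos N) = QuotientGroup.mk (γ * g) := rfl
    rw [this, ofInv_mk, ofInv_mk, ← SlashAction.slash_mul]
    congr 1
    group
  · obtain ⟨g, rfl⟩ := QuotientGroup.mk_surjective x
    rw [ofInv_mk]
    exact MDifferentiable.slash f.holo' k _
  · obtain ⟨g, rfl⟩ := QuotientGroup.mk_surjective x
    rw [ofInv_mk]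
    have hc : IsCusp (mapGL ℝ g⁻¹ • OnePoint.infty) 𝒮ℒ := isCusp_SL2Z_iff'.mpr ⟨_, rfl⟩
    have h2 := f.bdd_at_cusps' ((Subgroup.IsArithmetic.isCusp_iff_isCusp_SL2Z _).mpr hc)
    rw [OnePoint.isBoundedAt_iff_forall_SL2Z hc] at h2
    exact h2 _ rfl

lemma ofInv_mem_VS {k : ℤ} (f : CuspForm (CongruenceSubgroup.Gamma0 N) k) :
    ofInv (N := N) (k := k) (⇑f) (fun γ hγ => f.slash_action_eq' _ ⟨γ, hγ, rfl⟩) ∈
      VS (Cos N) k := by
  refine ⟨ofInv_mem ⟨f.toSlashInvariantForm, f.holo', ?_⟩, fun x => ?_⟩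
  · intro c hc
    exact fun g hg => (f.zero_at_cusps' hc g hg).boundedAtFilter
  · obtain ⟨g, rfl⟩ := QuotientGroup.mk_surjective x
    rw [ofInv_mk]
    have hc : IsCusp (mapGL ℝ g⁻¹ • OnePoint.infty) 𝒮ℒ := isCusp_SL2Z_iff'.mpr ⟨_, rfl⟩
    have h2 := f.zero_at_cusps' ((Subgroup.IsArithmetic.isCusp_iff_isCusp_SL2Z _).mpr hc)
    rw [OnePoint.isZeroAt_iff_forall_SL2Z hc] at h2
    exact h2 _ rfl

/-- cusp forms for `Γ₀(N)` as vector valued cusp forms -/
def cuspEquiv (N : ℕ) [NeZero N] (k : ℤ) :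
    CuspForm (CongruenceSubgroup.Gamma0 N) k ≃ₗ[ℂ] VS (Cos N) k where
  toFun f := ⟨_, ofInv_mem_VS f⟩
  map_add' f g := by
    apply Subtype.ext
    funext x
    obtain ⟨g', rfl⟩ := QuotientGroup.mk_surjective x
    change (⇑(f + g)) ∣[k] g'⁻¹ = (⇑f) ∣[k] g'⁻¹ + (⇑g) ∣[k] g'⁻¹
    rw [← SlashAction.add_slash]; rfl
  map_smul' c f := by
    apply Subtype.ext
    funext x
    obtain ⟨g', rfl⟩ := QuotientGroup.mk_surjective x
    change (⇑(c • f)) ∣[k] g'⁻¹ = c • ((⇑f) ∣[k] g'⁻¹)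
    rw [← ModularForm.SL_smul_slash]; rfl
  invFun F := VS.toCF F.2
  left_inv f := by
    apply DFunLike.ext'
    change (⇑f) ∣[k] (1 : SL(2,ℤ))⁻¹ = ⇑f
    rw [inv_one, SlashAction.slash_one]
  right_inv F := by
    apply Subtype.ext
    funext x
    obtain ⟨g', rfl⟩ := QuotientGroup.mk_surjective x
    exact (VM.mk_eq F.2.1 g').symm

lemma VM.eq_zero_of {k : ℤ} {F : Cos N → ℍ → ℂ} (hF : F ∈ VM (Cos N) k)
    (h0 : F (QuotientGroup.mk 1) = 0) : F = 0 := by
  funext x
  obtain ⟨g', rfl⟩ := QuotientGroup.mk_surjective x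
  rw [VM.mk_eq hF, h0, SlashAction.zero_slash]; rfl

theorem good_Cos (N : ℕ) [NeZero N] : Good (Cos N) N where
  hN := Nat.pos_of_neZero N
  hT := by
    intro x
    obtain ⟨g, rfl⟩ := QuotientGroup.mk_surjective x
    have : (ModularGroup.T ^ N) • (QuotientGroup.mk g : Cos N) =
      QuotientGroup.mk (ModularGroup.T ^ N * g) := rfl
    rw [this, eq_comm, QuotientGroup.eq]
    have hle : ∀ γ ∈ CongruenceSubgroup.Gamma N, γ ∈ CongruenceSubgroup.Gamma0 N := by
      intro γ hγ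
      rw [CongruenceSubgroup.Gamma0_mem]
      exact (CongruenceSubgroup.Gamma_mem.mp hγ).2.2.1
    apply hle
    have h1 : ModularGroup.T ^ N ∈ CongruenceSubgroup.Gamma N := by
      have := CongruenceSubgroup.ModularGroup_T_pow_mem_Gamma (N : ℤ) (N : ℤ) dvd_rfl
      simpa using this
    have h2 := (CongruenceSubgroup.Gamma_normal N).conj_mem _ h1 g⁻¹
    simpa [mul_assoc] using h2
  neg := by
    intro k hk
    rw [eq_bot_iff]
    intro F hF
    have h1 := ModularForm.isZero_of_neg_weight hk (VM.toMF hF)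
    rw [Submodule.mem_bot]
    exact VM.eq_zero_of hF (congrArg DFunLike.coe h1)
  odd := by
    intro k hk
    rw [eq_bot_iff]
    intro F hF
    rw [Submodule.mem_bot]
    funext x z
    have h1 : (-1 : SL(2,ℤ)) • x = x := by
      obtain ⟨g, rfl⟩ := QuotientGroup.mk_surjective x
      have : (-1 : SL(2,ℤ)) • (QuotientGroup.mk g : Cos N) = QuotientGroup.mk (-1 * g) := rfl
      rw [this, eq_comm, QuotientGroup.eq, CongruenceSubgroup.Gamma0_mem]
      have : g⁻¹ * (-1 * g) = -1 := by simp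
      rw [this]
      simp
    have h2 := VM.apply_smul hF (-1) x z
    rw [h1] at h2
    have h3 : denom ((-1 : SL(2,ℤ)) : GL (Fin 2) ℝ) z = -1 := by
      rw [ModularGroup.denom_apply]; simp
    have h4 : (-1 : SL(2,ℤ)) • z = z := by
      rw [ModularGroup.SL_neg_smul, one_smul]
    rw [h3, h4, hk.neg_one_zpow] at h2
    have : F x z = 0 := by linear_combination h2 / 2
    exact this
  rank0 := by
    refine finrank_eq_one (⟨1, one_mem_VM⟩ : VM (Cos N) 0) ?_ ?_
    · intro h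
      have := congrFun (congrFun (congrArg Subtype.val h) (QuotientGroup.mk 1)) UpperHalfPlane.I
      simp at this
    · rintro ⟨F, hF⟩
      obtain ⟨c, hc⟩ := ModularForm.eq_const_of_weight_zero (VM.toMF hF)
      refine ⟨c, Subtype.ext ?_⟩
      change c • (1 : Cos N → ℍ → ℂ) = F
      rw [← sub_eq_zero]
      refine VM.eq_zero_of (sub_mem (Submodule.smul_mem _ c one_mem_VM) hF) ?_
      change c • (1 : ℍ → ℂ) - F (QuotientGroup.mk 1) = 0
      have : F (QuotientGroup.mk 1) = Function.const ℍ c := hc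
      rw [this]
      ext z
      simp
  sep := exists_sep

end Fermat.Agent.DimS2
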