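import Fermat.Agent.DimS2.Pair

set_option autoImplicit false
set_option linter.unusedSectionVars false

open UpperHalfPlane ModularForm MatrixGroups Matrix.SpecialLinearGroup Filter Function
open scoped Manifold Topology Real
open Module Submodule

noncomputable section

namespace Fermat.Agent.DimS2

variable {X : Type} [MulAction SL(2,ℤ) X] [Fintype X] {N : ℕ}

lemma HB_of_VM {k : ℤ} {F : X → ℍ → ℂ} (hF : F ∈ VM X k) (x : X) : F x ∈ HB :=
  ⟨VM.holo hF x, VM.bdd hF x⟩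

lemma HB_of_L1 {k : ℤ} {f : ℍ → ℂ} (hf : IsL1 k f) : f ∈ HB := ⟨hf.holo, hf.bdd⟩

namespace Frame

variable (𝓕 : Frame X N)

/-- the solution of the linear system -/
def sol (r : 𝓕.J → ℍ → ℂ) : X → ℍ → ℂ := fun x z =>
  ∑ j, 𝓕.F j x z * (∑ i, (𝓕.gram z).adjugate j i * r i z)

lemma tr_sol (r : 𝓕.J → ℍ → ℂ) (i : 𝓕.J) (z : ℍ) :
    tr (𝓕.F i) (𝓕.sol r) z = 𝓕.disc z * r i z := by
  have h1 : tr (𝓕.F i) (𝓕.sol r) z =
      (𝓕.gram z).mulVec ((𝓕.gram z).adjugate.mulVec (fun i => r i z)) i := by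
    rw [gram_mulVec]
    simp only [tr, sol, Matrix.mulVec, dotProduct]
    refine Finset.sum_congr rfl fun x _ => ?_
    congr 1
    refine Finset.sum_congr rfl fun j _ => ?_
    ring
  rw [h1, Matrix.mulVec_mulVec, Matrix.mul_adjugate, Matrix.smul_mulVec, Matrix.one_mulVec]
  rfl

lemma sol_HB (r : 𝓕.J → ℍ → ℂ) (hr : ∀ i, r i ∈ HB) (x : X) : 𝓕.sol r x ∈ HB := by
  have : 𝓕.sol r x = ∑ j, 𝓕.F j x * (∑ i, (fun z => (𝓕.gram z).adjugate j i) * r i) := by
    ext z; simp [sol, Finset.sum_apply]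
  rw [this]
  refine Subalgebra.sum_mem _ fun j _ => Subalgebra.mul_mem _ (HB_of_VM (𝓕.mem j) x)
    (Subalgebra.sum_mem _ fun i _ => Subalgebra.mul_mem _ ?_ (hr i))
  exact adj_mem_HB (fun i j => tr (𝓕.F i) (𝓕.F j)) (fun i j => HB_of_L1 (𝓕.gram_entry_isL1 i j))
    j i

/-- if the pairings with the frame are level one forms of the right weight, we get a form -/
lemma mem_VM_of_tr (h : Good X N) {l : ℤ} {G : X → ℍ → ℂ} (hG : ∀ x, G x ∈ HB)
    (htr : ∀ i, IsL1 (𝓕.w i + l) (tr (𝓕.F i) G)) : G ∈ VM X l := by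
  refine mem_VM_of_apply (fun γ x z => ?_) (fun x => (hG x).1) (fun x => (hG x).2)
  have hd := denom_ne_zero γ z
  have key : (fun x => G (γ • x) (γ • z) - denom γ z ^ l * G x z) = 0 := by
    apply 𝓕.nondeg h z
    intro j
    have h1 := (htr j).apply_smul γ z
    have h2 : tr (𝓕.F j) G (γ • z) =
        denom γ z ^ (𝓕.w j : ℤ) * ∑ x, 𝓕.F j x z * G (γ • x) (γ • z) := by
      unfold tr
      rw [← Equiv.sum_comp (MulAction.toPerm γ), Finset.mul_sum]
      refine Finset.sum_congr rfl fun x _ => ?_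
      simp only [MulAction.toPerm_apply]
      rw [VM.apply_smul (𝓕.mem j)]
      ring
    rw [h1, zpow_add₀ hd, mul_assoc] at h2
    have h3 := mul_left_cancel₀ (zpow_ne_zero _ hd) h2
    simp only [mul_sub, Finset.sum_sub_distrib]
    rw [← h3, tr, Finset.mul_sum, ← Finset.sum_sub_distrib]
    apply Finset.sum_eq_zero
    intro x _
    ring
  have := congrFun key x
  simp only [Pi.zero_apply] at this
  exact sub_eq_zero.mp this

end Frame

lemma IsZero_of_mul {f g : ℍ → ℂ} (hf : IsBoundedAtImInfty f) (hg : IsZeroAtImInfty g) :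
    IsZeroAtImInfty (f * g) := by
  unfold IsZeroAtImInfty ZeroAtFilter at *
  have h1 : g =o[atImInfty] (1 : ℍ → ℝ) := by
    exact (Asymptotics.isLittleO_one_iff ℝ).mpr hg
  have h2 : (f * g) =o[atImInfty] (fun x => (1 : ℍ → ℝ) x * (1 : ℍ → ℝ) x) := hf.mul_isLittleO h1
  have h3 : (f * g) =o[atImInfty] (fun _ => (1 : ℝ)) := by simpa using! h2
  exact (Asymptotics.isLittleO_one_iff ℝ).mp h3

lemma tr_comm (F G : X → ℍ → ℂ) : tr F G = tr G F := by
  ext z; unfold tr; exact Finset.sum_congr rfl fun x _ => mul_comm _ _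

lemma tr_gen {J : Type} [Fintype J] (r : J → ℍ → ℂ) (F : J → X → ℍ → ℂ) (G : X → ℍ → ℂ) (z : ℍ) :
    tr (∑ j, sm (r j) (F j)) G z = ∑ j, r j z * tr (F j) G z := by
  simp only [tr, Finset.sum_apply, sm_apply, Finset.mul_sum, Finset.sum_mul]
  rw [Finset.sum_comm]
  refine Finset.sum_congr rfl fun j _ => Finset.sum_congr rfl fun x _ => by ring

namespace Frame

variable (𝓕 : Frame X N)

lemma exists_large : ∃ k : ℤ, Even k ∧ (𝓕.K₀ : ℤ) + 6 ≤ k :=
  ⟨2 * (𝓕.K₀ + 6), by simp, by omega⟩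

lemma zero_at_infty_of_tr (h : Good X N) {l : ℤ} {G : X → ℍ → ℂ} (hG : G ∈ VM X l)
    (htr : ∀ i, IsZeroAtImInfty (tr (𝓕.F i) G)) : ∀ x, IsZeroAtImInfty (G x) := by
  obtain ⟨k, hk, hk2⟩ := 𝓕.exists_large
  have hN' : (0:ℝ) < N := by exact_mod_cast h.hN
  have hs := jet_surj h 𝓕 k hk hk2
  have h0 : co N 0 G = 0 := by
    apply co_zero_of_tr h hs hG
    intro F hF
    rw [← (tr_per h.hT hF hG).isZero_iff hN']
    obtain ⟨r, hr, rfl⟩ := 𝓕.gen k hF
    have : tr (∑ j, sm (r j) (𝓕.F j)) G = ∑ j, r j * tr (𝓕.F j) G := by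
      ext z; rw [tr_gen]; simp [Finset.sum_apply]
    rw [this]
    unfold IsZeroAtImInfty ZeroAtFilter
    have h2 : Tendsto (fun z => ∑ j, (r j * tr (𝓕.F j) G) z) atImInfty (𝓝 (∑ j : 𝓕.J, (0:ℂ))) :=
      tendsto_finsetSum _ fun j _ => IsZero_of_mul (hr j).bdd (htr j)
    simp only [Finset.sum_const_zero] at h2
    exact h2.congr fun z => by simp [Finset.sum_apply]
  intro x
  rw [(VM.perN h.hT hG x).isZero_iff hN']
  exact congrFun h0 x

lemma div_of_tr (h : Good X N) {l : ℤ} {G : X → ℍ → ℂ} (hG : G ∈ VM X l)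
    (htr : ∀ i, (tr (𝓕.F i) G) =O[atImInfty]
      fun τ : ℍ => Real.exp (-2 * π * τ.im) * Real.exp (-2 * π * τ.im)) :
    ∃ G' ∈ VM X (l - 12), G = sm discriminant G' := by
  obtain ⟨k, hk, hk2⟩ := 𝓕.exists_large
  have hN' : (0:ℝ) < N := by exact_mod_cast h.hN
  have hs := jet_surj h 𝓕 k hk hk2
  have hco : ∀ F ∈ VM X k, ∀ i < 2 * N, (qExpansion N (tr F G)).coeff i = 0 := by
    intro F hF
    apply (tr_per h.hT hF hG).coeff_eq_zero_of_isBigO hN'
    obtain ⟨r, hr, rfl⟩ := 𝓕.gen k hF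
    have : tr (∑ j, sm (r j) (𝓕.F j)) G = fun z => ∑ j, r j z * tr (𝓕.F j) G z := by
      ext z; rw [tr_gen]
    rw [this]
    refine Asymptotics.IsBigO.fun_sum fun j _ => ?_
    have h2 : (fun z => r j z * tr (𝓕.F j) G z) =O[atImInfty]
        fun τ : ℍ => (1:ℝ) * (Real.exp (-2 * π * τ.im) * Real.exp (-2 * π * τ.im)) :=
      Asymptotics.IsBigO.mul (hr j).bdd (htr j)
    refine h2.congr_right fun τ => ?_
    rw [one_mul, ← Real.exp_add]
    congr 1
    push_cast
    field_simp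
    ring
  have h0 : co N 0 G = 0 :=
    co_zero_of_tr h hs hG fun F hF => hco F hF 0 (by have := h.hN; omega)
  have h1 := co_N_of_tr h hs hG h0 fun F hF => hco F hF N (by have := h.hN; omega)
  rw [← jet_eq_zero_iff h.hN h.hT hG, jet]
  refine Finset.sum_eq_zero fun n hn => ?_
  rcases Nat.eq_zero_or_pos n with rfl | hpos
  · exact h0
  · exact h1 n hpos (Finset.mem_range.mp hn).le

lemma descent (h : Good X N) (l : ℤ) (r : 𝓕.J → ℍ → ℂ)
    (hr : ∀ i, (r i) =O[atImInfty] fun τ : ℍ => Real.exp (-2 * π * τ.im))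
    (m : ℕ) : ∀ G ∈ VM X (l + 12 * m), (∀ i z, tr (𝓕.F i) G z = discriminant z ^ m * r i z) →
      ∃ G' ∈ VS X l, ∀ i z, tr (𝓕.F i) G' z = r i z := by
  induction m with
  | zero =>
    intro G hG htr
    simp only [Nat.cast_zero, mul_zero, add_zero, pow_zero, one_mul] at hG htr
    refine ⟨G, ⟨hG, 𝓕.zero_at_infty_of_tr h hG fun i => ?_⟩, htr⟩
    have h1 : tr (𝓕.F i) G = r i := by ext z; exact htr i z
    rw [h1]
    refine (hr i).trans_tendsto ?_
    have h2 : Tendsto (fun τ : ℍ => -2 * π * τ.im) atImInfty atBot := by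
      have h3 : Tendsto (fun τ : ℍ => τ.im) atImInfty atTop := tendsto_comap
      have h4 : Tendsto (fun y : ℝ => (-2 * π) * y) atTop atBot :=
        Filter.tendsto_id.const_mul_atTop_of_neg (by nlinarith [Real.pi_pos])
      exact h4.comp h3
    exact Real.tendsto_exp_atBot.comp h2
  | succ m ih =>
    intro G hG htr
    obtain ⟨G', hG', hGG'⟩ := 𝓕.div_of_tr h hG (fun i => by
      have h1 : tr (𝓕.F i) G = fun z => discriminant z ^ (m + 1) * r i z := by
        ext z; exact htr i z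
      rw [h1]
      have h2 : (fun z => discriminant z ^ (m + 1)) =O[atImInfty]
          fun τ : ℍ => Real.exp (-2 * π * τ.im) := by
        have h3 : (fun z => discriminant z ^ m) =O[atImInfty] (fun _ : ℍ => (1:ℝ)) := by
          have := (DimS2.disc_isL1.pow m).bdd
          exact this
        have h4 := h3.mul disc_isBigO
        refine (h4.congr (fun z => ?_) (fun z => ?_))
        · rw [pow_succ]
        · ring
      exact h2.mul (hr i))
    subst hGG'
    refine ih G' ?_ fun i z => ?_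
    · convert hG' using 2
      push_cast; ring
    · have h1 := htr i z
      have h2 : tr (𝓕.F i) (sm discriminant G') z = discriminant z * tr (𝓕.F i) G' z := by
        simp only [tr, sm_apply, Finset.mul_sum]
        exact Finset.sum_congr rfl fun x _ => by ring
      rw [h2, pow_succ'] at h1
      rw [mul_assoc] at h1
      exact mul_left_cancel₀ (discriminant_ne_zero z) h1

theorem exists_dual (h : Good X N) (l : ℤ) (r : ∀ j : 𝓕.J, CuspForm 𝒮ℒ (l + 𝓕.w j)) :
    ∃ G ∈ VS X l, ∀ i z, tr (𝓕.F i) G z = r i z := by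
  obtain ⟨m, c, hc, hkm, hdisc⟩ := eq_disc_pow 𝓕.disc_isL1 (fun z => 𝓕.gram_det_ne_zero h z)
  let rr : 𝓕.J → ℍ → ℂ := fun j => ⇑(r j)
  have hrr : ∀ j, (rr j) =O[atImInfty] fun τ : ℍ => Real.exp (-2 * π * τ.im) := by
    intro j
    have := CuspFormClass.exp_decay_atImInfty (h := 1) (r j) one_pos one_mem_strictPeriods_SL
    simpa using this
  let G : X → ℍ → ℂ := c⁻¹ • 𝓕.sol rr
  have htr : ∀ i z, tr (𝓕.F i) G z = discriminant z ^ m * rr i z := by
    intro i z
    have h1 : tr (𝓕.F i) G z = c⁻¹ * tr (𝓕.F i) (𝓕.sol rr) z := by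
      simp only [tr, G, Pi.smul_apply, smul_eq_mul, Finset.mul_sum]
      exact Finset.sum_congr rfl fun x _ => by ring
    rw [h1, 𝓕.tr_sol, hdisc]
    field_simp
  have hG : G ∈ VM X (l + 12 * m) := by
    apply 𝓕.mem_VM_of_tr h
    · intro x
      exact Subalgebra.smul_mem _ (𝓕.sol_HB rr (fun i => HB_of_L1 (isL1_coe_cusp (r i))) x) _
    · intro i
      have h1 : tr (𝓕.F i) G = discriminant ^ m * rr i := by
        ext z; exact htr i z
      rw [h1]
      exact ((DimS2.disc_isL1.pow m).mul (isL1_coe_cusp (r i))).congr_weight (by ring)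
  exact 𝓕.descent h l rr hrr m G hG htr

/-- pairing with the frame -/
def Psi (l : ℤ) : VS X l →ₗ[ℂ] (∀ j : 𝓕.J, CuspForm 𝒮ℒ (l + 𝓕.w j)) where
  toFun G j := ((tr_isL1 (𝓕.mem j) G.2.1).congr_weight (add_comm _ _)).toCF (by
    rw [tr_eq_sum]
    unfold IsZeroAtImInfty ZeroAtFilter
    have h2 : Tendsto (fun z => ∑ x : X, (𝓕.F j x * G.1 x) z) atImInfty (𝓝 (∑ x : X, (0:ℂ))) :=
      tendsto_finsetSum _ fun x _ => IsZero_of_mul (VM.bdd (𝓕.mem j) x) (G.2.2 x)
    simp only [Finset.sum_const_zero] at h2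
    exact h2.congr fun z => by simp [Finset.sum_apply])
  map_add' G G' := by
    ext j z
    show tr (𝓕.F j) (G.1 + G'.1) z = tr (𝓕.F j) G.1 z + tr (𝓕.F j) G'.1 z
    simp [tr, mul_add, Finset.sum_add_distrib]
  map_smul' c G := by
    ext j z
    show tr (𝓕.F j) (c • G.1) z = c * tr (𝓕.F j) G.1 z
    simp only [tr, Pi.smul_apply, smul_eq_mul, Finset.mul_sum]
    exact Finset.sum_congr rfl fun x _ => by ring

lemma Psi_apply (l : ℤ) (G : VS X l) (j : 𝓕.J) (z : ℍ) :
    𝓕.Psi l G j z = tr (𝓕.F j) G.1 z := rfl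

lemma Psi_bij (h : Good X N) (l : ℤ) : Function.Bijective (𝓕.Psi l) := by
  constructor
  · rw [injective_iff_map_eq_zero]
    intro G hG
    apply Subtype.ext
    ext x z
    have h1 : (fun x => G.1 x z) = 0 := by
      apply 𝓕.nondeg h z
      intro j
      have := 𝓕.Psi_apply l G j z
      rw [hG] at this
      exact this.symm
    exact congrFun h1 x
  · intro r
    obtain ⟨G, hG, hGr⟩ := 𝓕.exists_dual h l r
    exact ⟨⟨G, hG⟩, by ext j z; exact hGr j z⟩

/-- combination of the frame -/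
def Phi (k : ℤ) : (∀ j : 𝓕.J, ModularForm 𝒮ℒ (k - 𝓕.w j)) →ₗ[ℂ] VM X k where
  toFun r := ⟨∑ j, sm (⇑(r j)) (𝓕.F j), Submodule.sum_mem _ fun j _ => by
    have := sm_mem (isL1_coe (r j)) (𝓕.mem j)
    rwa [sub_add_cancel] at this⟩
  map_add' r s := by
    apply Subtype.ext
    simp only [Submodule.coe_add]
    rw [← Finset.sum_add_distrib]
    refine Finset.sum_congr rfl fun j _ => ?_
    ext x z; simp [add_mul]
  map_smul' c r := by
    apply Subtype.ext
    simp only [Submodule.coe_smul, RingHom.id_apply, Finset.smul_sum]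
    refine Finset.sum_congr rfl fun j _ => ?_
    ext x z; simp [mul_assoc]

lemma Phi_bij (h : Good X N) (k : ℤ) : Function.Bijective (𝓕.Phi k) := by
  constructor
  · rw [injective_iff_map_eq_zero]
    intro r hr
    ext j z
    have h1 := (Fintype.linearIndependent_iff.mp (𝓕.linInd h z)) (fun j => r j z) (by
      ext x
      have := congrFun (congrFun (congrArg Subtype.val hr) x) z
      simpa [Phi, Finset.sum_apply] using this)
    exact h1 j
  · rintro ⟨G, hG⟩
    obtain ⟨r, hr, hGr⟩ := 𝓕.gen k hG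
    exact ⟨fun j => (hr j).toMF, Subtype.ext hGr.symm⟩

lemma d_eq (h : Good X N) (k : ℤ) :
    d X k = ∑ j, finrank ℂ (ModularForm 𝒮ℒ (k - 𝓕.w j)) := by
  rw [d, ← (LinearEquiv.ofBijective (𝓕.Phi k) (𝓕.Phi_bij h k)).finrank_eq,
    Module.finrank_pi_fintype]

lemma s_eq (h : Good X N) (l : ℤ) :
    finrank ℂ (VS X l) = ∑ j, finrank ℂ (CuspForm 𝒮ℒ (l + 𝓕.w j)) := by
  have h1 := (LinearEquiv.ofBijective (𝓕.Psi l) (𝓕.Psi_bij h l)).finrank_eq
  have : ∀ k : ℤ, Module.Finite ℂ (CuspForm 𝒮ℒ k) := fun k =>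
    Module.Finite.equiv CuspForm.discriminantEquiv.symm
  rw [h1, Module.finrank_pi_fintype]

end Frame

end Fermat.Agent.DimS2
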