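import Fermat.Agent.DimS2.Gen

set_option autoImplicit false
set_option linter.unusedSectionVars false

open UpperHalfPlane ModularForm MatrixGroups Matrix.SpecialLinearGroup Filter Function
open scoped Manifold Topology Real
open Module Submodule

noncomputable section

namespace Fermat.Agent.DimS2

variable {X : Type} [MulAction SL(2,ℤ) X] [Fintype X] {N : ℕ}

/-- values of forms at `z` -/
def vals (X : Type) [MulAction SL(2,ℤ) X] (z : ℍ) : Submonoid (X → ℂ) where
  carrier := {v | ∃ k, ∃ F ∈ VM X k, v = fun x => F x z}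
  mul_mem' := by
    rintro _ _ ⟨k, F, hF, rfl⟩ ⟨l, G, hG, rfl⟩
    exact ⟨k + l, F * G, mul_mem hF hG, rfl⟩
  one_mem' := ⟨0, 1, one_mem_VM, rfl⟩

lemma span_vals (h : Good X N) (z : ℍ) : span ℂ (vals X z : Set (X → ℂ)) = ⊤ := by
  classical
  have h1 : Subalgebra.toSubmodule (Algebra.adjoin ℂ (vals X z : Set (X → ℂ))) =
      span ℂ (vals X z : Set (X → ℂ)) := by
    rw [Algebra.adjoin_eq_span, Submonoid.closure_eq]
  rw [← h1, eq_top_iff]
  set S := Algebra.adjoin ℂ (vals X z : Set (X → ℂ)) with hS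
  have key : ∀ x : X, (Pi.single x 1 : X → ℂ) ∈ S := by
    intro x
    have hsep : ∀ y, y ≠ x → ∃ p ∈ S, p x = 1 ∧ p y = 0 := by
      intro y hy
      obtain ⟨k, F, hF, hne⟩ := h.sep z x y (Ne.symm hy)
      refine ⟨(F x z - F y z)⁻¹ • ((fun x => F x z) - (F y z) • (1 : X → ℂ)), ?_, ?_, ?_⟩
      · refine Subalgebra.smul_mem _ (Subalgebra.sub_mem _ ?_ (Subalgebra.smul_mem _ (one_mem _) _)) _
        exact Algebra.subset_adjoin ⟨k, F, hF, rfl⟩
      · have : F x z - F y z ≠ 0 := sub_ne_zero.mpr hne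
        simp [this]
      · simp
    choose! p hp1 hp2 hp3 using hsep
    have : (Pi.single x 1 : X → ℂ) = ∏ y ∈ Finset.univ.erase x, p y := by
      ext y
      rw [Finset.prod_apply]
      by_cases hy : y = x
      · subst hy
        rw [Pi.single_eq_same, Finset.prod_eq_one]
        intro i hi
        exact hp2 i (Finset.ne_of_mem_erase hi)
      · rw [Pi.single_eq_of_ne hy]
        symm
        apply Finset.prod_eq_zero (i := y) (by simp [hy])
        exact hp3 y hy
    rw [this]
    exact Subalgebra.prod_mem _ fun y hy => hp1 y (Finset.ne_of_mem_erase hy)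
  intro v _
  have hv : v = ∑ x, v x • (Pi.single x 1 : X → ℂ) := by
    ext y
    simp [Finset.sum_apply, Pi.single_apply]
  rw [hv]
  exact Submodule.sum_mem _ fun x _ => Submodule.smul_mem _ _ (key x)

/-- A homogeneous basis. -/
structure Frame (X : Type) [MulAction SL(2,ℤ) X] [Fintype X] (N : ℕ) where
  J : Type
  [fintypeJ : Fintype J]
  [decJ : DecidableEq J]
  w : J → ℕ
  F : J → X → ℍ → ℂ
  K₀ : ℕ
  mem : ∀ j, F j ∈ VM X (w j)
  gen : ∀ k, VM X k ≤ GenM (fun j => (w j : ℤ)) F k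
  card : Fintype.card J = Fintype.card X
  stable : ∀ K, K₀ ≤ K → nu X K = Fintype.card X

attribute [instance] Frame.fintypeJ Frame.decJ

theorem span_fiber {J : Type} [Fintype J] {w : J → ℕ}
    {F : J → X → ℍ → ℂ} (h : Good X N) (hgen : ∀ k, VM X k ≤ GenM (fun j => (w j : ℤ)) F k)
    (z : ℍ) : ⊤ ≤ span ℂ (Set.range fun j => (fun x => F j x z : X → ℂ)) := by
  rw [← span_vals h z, span_le]
  rintro _ ⟨k, G, hG, rfl⟩
  obtain ⟨r, hr, rfl⟩ := hgen k hG
  have : (fun x => (∑ j, sm (r j) (F j)) x z) = ∑ j, r j z • (fun x => F j x z : X → ℂ) := by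
    ext x
    simp [Finset.sum_apply]
  rw [this]
  exact Submodule.sum_mem _ fun j _ => Submodule.smul_mem _ _ (subset_span ⟨j, rfl⟩)

theorem exists_frame (h : Good X N) : Nonempty (Frame X N) := by
  classical
  obtain ⟨J, _, w, F, K₀, hF, hgen, hcard, hst⟩ := exists_generators h
  have h1 : Fintype.card X ≤ Fintype.card J := by
    have := finrank_le_of_span_eq_top (R := ℂ)
      (eq_top_iff.mpr (span_fiber h hgen UpperHalfPlane.I))
    rwa [Module.finrank_pi] at this
  have h2 : Fintype.card J ≤ Fintype.card X := by rw [hcard]; exact nu_le h K₀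
  have h3 := le_antisymm h2 h1
  exact ⟨{ J := J, w := w, F := F, K₀ := K₀, mem := hF, gen := hgen, card := h3,
           stable := fun K hK => by rw [hst K hK, ← hcard, h3] }⟩

namespace Frame

variable (𝓕 : Frame X N)

lemma span (h : Good X N) (z : ℍ) :
    ⊤ ≤ Submodule.span ℂ (Set.range fun j => (fun x => 𝓕.F j x z : X → ℂ)) :=
  span_fiber h 𝓕.gen z

lemma linInd (h : Good X N) (z : ℍ) :
    LinearIndependent ℂ (fun j => (fun x => 𝓕.F j x z : X → ℂ)) :=
  linearIndependent_of_top_le_span_of_card_eq_finrank (𝓕.span h z)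
    (by rw [𝓕.card, Module.finrank_pi])

/-- the basis of the fiber at `z` -/
def basis (h : Good X N) (z : ℍ) : Basis 𝓕.J ℂ (X → ℂ) :=
  Basis.mk (𝓕.linInd h z) (𝓕.span h z)

@[simp] lemma basis_apply (h : Good X N) (z : ℍ) (j : 𝓕.J) (x : X) :
    𝓕.basis h z j x = 𝓕.F j x z := by
  simp [basis]

lemma nondeg (h : Good X N) (z : ℍ) (v : X → ℂ) (hv : ∀ j, ∑ x, 𝓕.F j x z * v x = 0) : v = 0 := by
  classical
  have h1 : ∀ u ∈ Submodule.span ℂ (Set.range fun j => (fun x => 𝓕.F j x z : X → ℂ)),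
      ∑ x, u x * v x = 0 := by
    intro u hu
    induction hu using Submodule.span_induction with
    | mem u hu => obtain ⟨j, rfl⟩ := hu; exact hv j
    | zero => simp
    | add a b _ _ ha hb => simp [add_mul, Finset.sum_add_distrib, ha, hb]
    | smul c a _ ha => simp [mul_assoc, ← Finset.mul_sum, ha]
  ext x
  have h2 := h1 (Pi.single x 1) (𝓕.span h z Submodule.mem_top)
  simpa [Pi.single_apply] using h2

/-- Gram matrix -/
def gram (z : ℍ) : Matrix 𝓕.J 𝓕.J ℂ := Matrix.of fun i j => tr (𝓕.F i) (𝓕.F j) z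

lemma gram_apply (z : ℍ) (i j : 𝓕.J) : 𝓕.gram z i j = tr (𝓕.F i) (𝓕.F j) z := rfl

lemma gram_mulVec (z : ℍ) (c : 𝓕.J → ℂ) (i : 𝓕.J) :
    (𝓕.gram z).mulVec c i = ∑ x, 𝓕.F i x z * (∑ j, c j * 𝓕.F j x z) := by
  simp only [Matrix.mulVec, dotProduct, gram_apply, tr, Finset.sum_mul, Finset.mul_sum]
  rw [Finset.sum_comm]
  refine Finset.sum_congr rfl fun x _ => Finset.sum_congr rfl fun j _ => by ring

lemma gram_det_ne_zero (h : Good X N) (z : ℍ) : (𝓕.gram z).det ≠ 0 := by
  intro h0
  obtain ⟨c, hc, hc0⟩ := Matrix.exists_mulVec_eq_zero_iff.mpr h0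
  have h1 : (fun x => ∑ j, c j * 𝓕.F j x z : X → ℂ) = 0 := by
    apply 𝓕.nondeg h z
    intro i
    rw [← gram_mulVec, hc0]; rfl
  have h2 := (Fintype.linearIndependent_iff.mp (𝓕.linInd h z)) c (by
    rw [← h1]
    ext x
    simp [Finset.sum_apply])
  exact hc (funext h2)

end Frame

/-- holomorphic functions bounded at infinity -/
def HB : Subalgebra ℂ (ℍ → ℂ) where
  carrier := {f | MDiff f ∧ IsBoundedAtImInfty f}
  mul_mem' := fun h1 h2 => ⟨h1.1.mul h2.1, h1.2.mul h2.2⟩
  add_mem' := fun h1 h2 => ⟨h1.1.add h2.1, h1.2.add h2.2⟩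
  algebraMap_mem' := fun c => ⟨mdifferentiable_const, by
    have h1 : IsBoundedAtImInfty (c • (1 : ℍ → ℂ)) := isL1_one.bdd.const_smul_left c
    have h2 : algebraMap ℂ (ℍ → ℂ) c = c • (1 : ℍ → ℂ) := by
      ext z; simp
    rw [h2]; exact h1⟩

lemma det_mem_HB {J : Type} [Fintype J] [DecidableEq J] (M : J → J → ℍ → ℂ)
    (hM : ∀ i j, M i j ∈ HB) : (fun z => (Matrix.of fun i j => M i j z).det) ∈ HB := by
  have : (fun z => (Matrix.of fun i j => M i j z).det) =
      ∑ σ : Equiv.Perm J, ((Equiv.Perm.sign σ : ℤ) : ℂ) • ∏ i, M (σ i) i := by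
    ext z
    rw [Matrix.det_apply']
    simp [Finset.sum_apply, Finset.prod_apply]
  rw [this]
  exact Subalgebra.sum_mem _ fun σ _ => Subalgebra.smul_mem _
    (Subalgebra.prod_mem _ fun i _ => hM _ _) _

lemma adj_mem_HB {J : Type} [Fintype J] [DecidableEq J] (M : J → J → ℍ → ℂ)
    (hM : ∀ i j, M i j ∈ HB) (a b : J) :
    (fun z => (Matrix.of fun i j => M i j z).adjugate a b) ∈ HB := by
  have : (fun z => (Matrix.of fun i j => M i j z).adjugate a b) =
      fun z => (Matrix.of fun i j =>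
        (fun i j => if i = b then (fun _ => (Pi.single a 1 : J → ℂ) j) else M i j : J → J → ℍ → ℂ)
          i j z).det := by
    ext z
    rw [Matrix.adjugate_apply]
    congr 1
    ext i j
    simp only [Matrix.updateRow_apply, Matrix.of_apply]
    split_ifs <;> rfl
  rw [this]
  apply det_mem_HB
  intro i j
  split_ifs
  · exact HB.algebraMap_mem ((Pi.single a 1 : J → ℂ) j)
  · exact hM i j

namespace Frame

variable (𝓕 : Frame X N)

lemma gram_entry_isL1 (i j : 𝓕.J) : IsL1 (𝓕.w i + 𝓕.w j) (tr (𝓕.F i) (𝓕.F j)) :=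
  tr_isL1 (𝓕.mem i) (𝓕.mem j)

/-- the discriminant of the frame -/
def disc (z : ℍ) : ℂ := (𝓕.gram z).det

lemma disc_isL1 : IsL1 (2 * ∑ j, (𝓕.w j : ℤ)) 𝓕.disc := by
  have hHB := det_mem_HB (fun i j => tr (𝓕.F i) (𝓕.F j))
    (fun i j => ⟨(𝓕.gram_entry_isL1 i j).holo, (𝓕.gram_entry_isL1 i j).bdd⟩)
  refine isL1_of_apply (fun γ z => ?_) hHB.1 hHB.2
  have h1 : 𝓕.gram (γ • z) = Matrix.diagonal (fun j => denom γ z ^ (𝓕.w j : ℤ)) * 𝓕.gram z *
      Matrix.diagonal (fun j => denom γ z ^ (𝓕.w j : ℤ)) := by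
    ext i j
    rw [Matrix.mul_diagonal, Matrix.diagonal_mul, gram_apply, gram_apply,
      (𝓕.gram_entry_isL1 i j).apply_smul, zpow_add₀ (denom_ne_zero _ _)]
    ring
  unfold disc
  rw [h1, Matrix.det_mul, Matrix.det_mul, Matrix.det_diagonal]
  have h2 : ∏ j, denom γ z ^ (𝓕.w j : ℤ) = denom γ z ^ (∑ j, (𝓕.w j : ℤ)) := by
    induction (Finset.univ : Finset 𝓕.J) using Finset.induction_on with
    | empty => simp
    | insert a s ha ih =>
      rw [Finset.prod_insert ha, Finset.sum_insert ha, ih, zpow_add₀ (denom_ne_zero _ _)]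
  rw [h2, two_mul, zpow_add₀ (denom_ne_zero _ _)]
  ring

end Frame

/-- a nowhere vanishing level one form is a multiple of a power of `Δ` -/
lemma eq_disc_pow {k : ℤ} {f : ℍ → ℂ} (hf : IsL1 k f) (h0 : ∀ z, f z ≠ 0) :
    ∃ (m : ℕ) (c : ℂ), c ≠ 0 ∧ k = 12 * m ∧ ∀ z, f z = c * discriminant z ^ m := by
  have key : ∀ n : ℕ, ∀ k : ℤ, k < n → ∀ f : ℍ → ℂ, IsL1 k f → (∀ z, f z ≠ 0) →
      ∃ (m : ℕ) (c : ℂ), c ≠ 0 ∧ k = 12 * m ∧ ∀ z, f z = c * discriminant z ^ m := by
    intro n
    induction n with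
    | zero =>
      intro k hk f hf h0
      exfalso
      have := ModularFormClass.levelOne_neg_weight_eq_zero (by simpa using hk) hf.toMF
      exact h0 UpperHalfPlane.I (congrFun this _)
    | succ n ih =>
      intro k hk f hf h0
      by_cases hz : IsZeroAtImInfty f
      · -- divide by Δ
        let g := CuspForm.discriminantEquiv (hf.toCF hz)
        have hg : ∀ z, g z = f z / discriminant z := fun z => rfl
        obtain ⟨m, c, hc, hk', hfm⟩ := ih (k - 12) (by push_cast at hk; omega) g (isL1_coe g)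
          (fun z => by rw [hg]; exact div_ne_zero (h0 z) (discriminant_ne_zero z))
        refine ⟨m + 1, c, hc, by push_cast; omega, fun z => ?_⟩
        have := hfm z
        rw [hg, div_eq_iff (discriminant_ne_zero z)] at this
        rw [this]; ring
      · -- the inverse is a modular form
        have hper := hf.per
        have hc0 : (qExpansion 1 f).coeff 0 ≠ 0 := fun h => hz ((hper.isZero_iff one_pos).mpr h)
        have ht := hper.tendsto one_pos
        have hinv : IsL1 (-k) (fun z => (f z)⁻¹) := by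
          refine isL1_of_apply (fun γ z => ?_) ?_ ?_
          · rw [hf.apply_smul, mul_inv, zpow_neg]
          · exact hf.holo.inv h0
          · exact (ht.inv₀ hc0).isBigO_one ℝ
        rcases lt_trichotomy k 0 with hk0 | hk0 | hk0
        · exfalso
          have := ModularFormClass.levelOne_neg_weight_eq_zero hk0 hf.toMF
          exact h0 UpperHalfPlane.I (congrFun this _)
        · subst hk0
          obtain ⟨c, hc⟩ := ModularFormClass.levelOne_weight_zero_const hf.toMF
          have hc' : ∀ z, f z = c := fun z => congrFun hc z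
          refine ⟨0, c, ?_, by simp, fun z => by simp [hc' z]⟩
          rw [← hc' UpperHalfPlane.I]; exact h0 _
        · exfalso
          have := ModularFormClass.levelOne_neg_weight_eq_zero (by omega) hinv.toMF
          have := congrFun this UpperHalfPlane.I
          exact inv_ne_zero (h0 _) this
  obtain ⟨n, hn⟩ : ∃ n : ℕ, k < n := ⟨(k + 1).toNat, by omega⟩
  exact key n k hn f hf h0

end Fermat.Agent.DimS2
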