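import Fermat.Agent.DimS2.QExp

set_option autoImplicit false
set_option linter.unusedSectionVars false

open UpperHalfPlane ModularForm MatrixGroups Matrix.SpecialLinearGroup Filter Function
open scoped Manifold Topology Real

local notation "𝕢" => Function.Periodic.qParam

noncomputable section

namespace Fermat.Agent.DimS2

variable {X : Type} [MulAction SL(2,ℤ) X]

lemma VM.apply_T {k : ℤ} {F : X → ℍ → ℂ} (hF : F ∈ VM X k) (x : X) (z : ℍ) :
    F (ModularGroup.T • x) ((1 : ℝ) +ᵥ z) = F x z := by
  have h := VM.apply_smul hF ModularGroup.T x z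
  rw [modular_T_smul] at h
  rw [h, ModularGroup.denom_apply]
  simp [ModularGroup.T]

lemma VM.apply_T_pow {k : ℤ} {F : X → ℍ → ℂ} (hF : F ∈ VM X k) (n : ℕ) (x : X) (z : ℍ) :
    F (ModularGroup.T ^ n • x) ((n : ℝ) +ᵥ z) = F x z := by
  induction n generalizing x z with
  | zero => simp
  | succ n ih =>
    have h := ih (ModularGroup.T • x) ((1:ℝ) +ᵥ z)
    rw [VM.apply_T hF] at h
    rw [← h, pow_succ, mul_smul]
    congr 1
    rw [← add_vadd]
    push_cast; rfl

variable {N : ℕ}

lemma VM.perN (hT : ∀ x : X, (ModularGroup.T ^ N) • x = x) {k : ℤ} {F : X → ℍ → ℂ}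
    (hF : F ∈ VM X k) (x : X) : Per N (F x) where
  per := periodic_of_vadd fun τ => by
    have := VM.apply_T_pow hF N x τ
    rwa [hT] at this
  holo := VM.holo hF x
  bdd := VM.bdd hF x

/-- coefficient of the `q_N`-expansion. -/
def co (N : ℕ) (n : ℕ) (F : X → ℍ → ℂ) : X → ℂ := fun x => (qExpansion N (F x)).coeff n

variable (N) in
/-- the primitive root of unity -/
def zt : ℂ := 𝕢 N 1

lemma zt_prim (hN : 0 < N) : IsPrimitiveRoot (zt N) N := by
  have := Complex.isPrimitiveRoot_exp N hN.ne'
  simpa [zt, Periodic.qParam] using this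

lemma zt_ne_zero : zt N ≠ 0 := Periodic.qParam_ne_zero _

lemma co_add (hN : 0 < N) (hT : ∀ x : X, (ModularGroup.T ^ N) • x = x) {k : ℤ}
    {F G : X → ℍ → ℂ} (hF : F ∈ VM X k) (hG : G ∈ VM X k) (n : ℕ) :
    co N n (F + G) = co N n F + co N n G := by
  have hN' : (0:ℝ) < N := by exact_mod_cast hN
  ext x
  simp only [co, Pi.add_apply]
  rw [qExpansion_add ((VM.perN hT hF x).analyticAt hN') ((VM.perN hT hG x).analyticAt hN')]
  simp

lemma co_smul (hN : 0 < N) (hT : ∀ x : X, (ModularGroup.T ^ N) • x = x) {k : ℤ}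
    {F : X → ℍ → ℂ} (hF : F ∈ VM X k) (c : ℂ) (n : ℕ) :
    co N n (c • F) = c • co N n F := by
  have hN' : (0:ℝ) < N := by exact_mod_cast hN
  ext x
  simp only [co, Pi.smul_apply]
  rw [qExpansion_smul ((VM.perN hT hF x).analyticAt hN')]
  simp

lemma co_T (hN : 0 < N) (hT : ∀ x : X, (ModularGroup.T ^ N) • x = x) {k : ℤ}
    {F : X → ℍ → ℂ} (hF : F ∈ VM X k) (n : ℕ) (x : X) :
    co N n F x = zt N ^ n * co N n F (ModularGroup.T • x) := by
  have hN' : (0:ℝ) < N := by exact_mod_cast hN
  symm
  refine (VM.perN hT hF x).coeff_unique hN' (c := fun n => zt N ^ n * co N n F (ModularGroup.T • x))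
    (fun τ => ?_) n
  have h := (VM.perN hT hF (ModularGroup.T • x)).hasSum hN' ((1:ℝ) +ᵥ τ)
  rw [VM.apply_T hF] at h
  convert h using 2 with m
  simp only [smul_eq_mul, co]
  have : 𝕢 (N:ℝ) (((1:ℝ) +ᵥ τ : ℍ) : ℂ) = zt N * 𝕢 N τ := by
    simp only [zt, Periodic.qParam, UpperHalfPlane.coe_vadd, ← Complex.exp_add]
    congr 1
    push_cast
    ring
  rw [this, mul_pow]
  ring

/-- The truncated expansion. -/
def jet (N : ℕ) (F : X → ℍ → ℂ) : X → ℂ := ∑ n ∈ Finset.range N, co N n F

variable (X) in
/-- jets as a linear map -/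
def jetL (hN : 0 < N) (hT : ∀ x : X, (ModularGroup.T ^ N) • x = x) (k : ℤ) :
    VM X k →ₗ[ℂ] (X → ℂ) where
  toFun F := jet N F.1
  map_add' F G := by
    simp only [jet, Submodule.coe_add]
    rw [← Finset.sum_add_distrib]
    exact Finset.sum_congr rfl fun n _ => co_add hN hT F.2 G.2 n
  map_smul' c F := by
    simp only [jet, Submodule.coe_smul, RingHom.id_apply]
    rw [Finset.smul_sum]
    exact Finset.sum_congr rfl fun n _ => co_smul hN hT F.2 c n

@[simp] lemma jetL_apply (hN : 0 < N) (hT : ∀ x : X, (ModularGroup.T ^ N) • x = x) (k : ℤ)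
    (F : VM X k) : jetL X hN hT k F = jet N F.1 := rfl

/-- independence of eigenvectors -/
lemma eig_indep {ι : Type*} (s : Finset ι) (c : ι → ℂ) (hc : Set.InjOn c s)
    (v : ι → X → ℂ) (hv : ∀ i ∈ s, ∀ x, v i x = c i * v i (ModularGroup.T • x))
    (hsum : ∑ i ∈ s, v i = 0) : ∀ i ∈ s, v i = 0 := by
  classical
  induction s using Finset.induction_on generalizing v with
  | empty => simp
  | insert a s ha ih =>
    have key : ∀ i ∈ s, v i = 0 := by
      intro i hi
      have h1 : ∀ i ∈ s, (fun (i : ι) (x : X) => (c a * v i (ModularGroup.T • x) - v i x)) i = 0 := by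
        apply ih
        · exact hc.mono (by simp)
        · intro j hj x
          have h2 := hv j (Finset.mem_insert_of_mem hj) x
          have h3 := hv j (Finset.mem_insert_of_mem hj) (ModularGroup.T • x)
          linear_combination (c a) * h3 - h2
        · ext x
          simp only [Finset.sum_apply, Pi.zero_apply, Finset.sum_sub_distrib, ← Finset.mul_sum]
          have h4 := congrFun hsum x
          have h5 := congrFun hsum (ModularGroup.T • x)
          simp only [Finset.sum_insert ha, Finset.sum_apply, Pi.zero_apply] at h4 h5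
          have h6 := hv a (Finset.mem_insert_self a s) x
          linear_combination (c a) * h5 - h4 + h6
      have h2 := h1 i hi
      have hci : c i ≠ c a := by
        intro h
        have := hc (Finset.mem_coe.mpr (Finset.mem_insert_of_mem hi))
          (Finset.mem_coe.mpr (Finset.mem_insert_self a s)) h
        exact ha (this ▸ hi)
      ext x
      have h3 := congrFun h2 x
      simp only [Pi.zero_apply] at h3
      have h4 := hv i (Finset.mem_insert_of_mem hi) x
      have h5 : v i (ModularGroup.T • x) = 0 := by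
        have : (c a - c i) * v i (ModularGroup.T • x) = 0 := by
          linear_combination h3 + h4
        rcases mul_eq_zero.mp this with h | h
        · exact absurd (sub_eq_zero.mp h).symm hci
        · exact h
      rw [h4, h5]; simp
    intro i hi
    rcases Finset.mem_insert.mp hi with rfl | hi
    · rw [Finset.sum_insert ha, Finset.sum_eq_zero key, add_zero] at hsum
      exact hsum
    · exact key i hi

lemma co_eq_zero_of_jet (hN : 0 < N) (hT : ∀ x : X, (ModularGroup.T ^ N) • x = x) {k : ℤ}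
    {F : X → ℍ → ℂ} (hF : F ∈ VM X k) (h : jet N F = 0) : ∀ n < N, co N n F = 0 := by
  intro n hn
  refine eig_indep (Finset.range N) (fun n => zt N ^ n) ?_ (fun n => co N n F)
    (fun i _ x => co_T hN hT hF i x) h n (Finset.mem_range.mpr hn)
  intro a ha b hb hab
  exact (zt_prim hN).pow_inj (by simpa using ha) (by simpa using hb) hab

lemma isBigO_of_jet (hN : 0 < N) (hT : ∀ x : X, (ModularGroup.T ^ N) • x = x) {k : ℤ}
    {F : X → ℍ → ℂ} (hF : F ∈ VM X k) (h : jet N F = 0) (x : X) :
    (F x) =O[atImInfty] fun τ : ℍ => Real.exp (-2 * π * τ.im) := by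
  have hN' : (0:ℝ) < N := by exact_mod_cast hN
  have := (VM.perN hT hF x).isBigO_of_coeff_eq_zero hN' (m := N)
    (fun i hi => congrFun (co_eq_zero_of_jet hN hT hF h i hi) x)
  refine this.congr_right fun τ => ?_
  congr 1
  field_simp

lemma jet_of_isBigO (hN : 0 < N) (hT : ∀ x : X, (ModularGroup.T ^ N) • x = x) {k : ℤ}
    {F : X → ℍ → ℂ} (hF : F ∈ VM X k)
    (h : ∀ x, (F x) =O[atImInfty] fun τ : ℍ => Real.exp (-2 * π * τ.im)) : jet N F = 0 := by
  have hN' : (0:ℝ) < N := by exact_mod_cast hN
  unfold jet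
  refine Finset.sum_eq_zero fun n hn => ?_
  ext x
  refine (VM.perN hT hF x).coeff_eq_zero_of_isBigO hN' (m := N) ?_ n (Finset.mem_range.mp hn)
  refine (h x).congr_right fun τ => ?_
  congr 1
  field_simp

/-- division by the discriminant -/
lemma exists_div_disc {k : ℤ} {F : X → ℍ → ℂ} (hF : F ∈ VM X k)
    (h : ∀ x, (F x) =O[atImInfty] fun τ : ℍ => Real.exp (-2 * π * τ.im)) :
    ∃ G ∈ VM X (k - 12), F = sm discriminant G := by
  have hΔ : IsL1 12 discriminant := isL1_coe_cusp CuspForm.discriminant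
  refine ⟨fun x z => F x z / discriminant z, ?_, ?_⟩
  · refine mem_VM_of_apply (fun γ x z => ?_) (fun x => (VM.holo hF x).div hΔ.holo
      discriminant_ne_zero) (fun x => ?_)
    · rw [VM.apply_smul hF, hΔ.apply_smul, zpow_sub₀ (denom_ne_zero _ _), mul_div_mul_comm]
    · have h1 : (F x) =O[atImInfty] discriminant := (h x).trans exp_isBigO_discriminant
      exact (Asymptotics.div_isBoundedUnder_of_isBigO h1).isBigO_one ℝ
  · ext x z
    rw [sm_apply, mul_div_cancel₀ _ (discriminant_ne_zero z)]

lemma disc_isBigO : discriminant =O[atImInfty] fun τ : ℍ => Real.exp (-2 * π * τ.im) := by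
  have := CuspFormClass.exp_decay_atImInfty (h := 1) CuspForm.discriminant one_pos
    one_mem_strictPeriods_SL
  simpa using this

lemma sm_disc_isBigO {k : ℤ} {G : X → ℍ → ℂ} (hG : G ∈ VM X k) (x : X) :
    (sm discriminant G x) =O[atImInfty] fun τ : ℍ => Real.exp (-2 * π * τ.im) := by
  have := disc_isBigO.mul (VM.bdd hG x)
  simpa using! this

/-- the kernel of the jet map -/
lemma jet_eq_zero_iff (hN : 0 < N) (hT : ∀ x : X, (ModularGroup.T ^ N) • x = x) {k : ℤ}
    {F : X → ℍ → ℂ} (hF : F ∈ VM X k) :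
    jet N F = 0 ↔ ∃ G ∈ VM X (k - 12), F = sm discriminant G := by
  constructor
  · intro h
    exact exists_div_disc hF (isBigO_of_jet hN hT hF h)
  · rintro ⟨G, hG, rfl⟩
    exact jet_of_isBigO hN hT hF (sm_disc_isBigO hG)

end Fermat.Agent.DimS2
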