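import Fermat.Agent.DimS2.Frame

set_option autoImplicit false
set_option linter.unusedSectionVars false

open UpperHalfPlane ModularForm MatrixGroups Matrix.SpecialLinearGroup Filter Function
open scoped Manifold Topology Real
open Module Submodule

noncomputable section

namespace Fermat.Agent.DimS2

variable {X : Type} [MulAction SL(2,ℤ) X] [Fintype X] {N : ℕ}

lemma jet_surj (h : Good X N) (𝓕 : Frame X N) (k : ℤ) (hk : Even k) (hk2 : 𝓕.K₀ + 6 ≤ k) :
    Function.Surjective (jetL X h.hN h.hT k) := by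
  apply jet_surj_of_d h
  obtain ⟨K, hK⟩ : ∃ K : ℕ, k = K + 6 := ⟨(k - 6).toNat, by omega⟩
  subst hK
  have h1 := nu_add h K
  have s1 := 𝓕.stable K (by omega)
  have s2 := 𝓕.stable (K + 6) (by omega)
  have h6 := d_le h (K + 6)
  have h4 := d_le h (K + 4)
  have he : Even (K : ℤ) := by
    have := hk.sub (show Even (6 : ℤ) by decide)
    simpa using this
  have o5 := d_odd h (k := K + 5) (he.add_odd (by decide))
  have o3 := d_odd h (k := K + 3) (he.add_odd (by decide))
  have o5' := d_odd h (k := K + 5 - 12) ((he.add_odd (by decide)).sub_even (by decide))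
  have o3' := d_odd h (k := K + 3 - 12) ((he.add_odd (by decide)).sub_even (by decide))
  omega

/-- bilinear pairing -/
def pr (u v : X → ℂ) : ℂ := ∑ x, u x * v x

lemma pr_sum_left {ι : Type*} (s : Finset ι) (u : ι → X → ℂ) (v : X → ℂ) :
    pr (∑ i ∈ s, u i) v = ∑ i ∈ s, pr (u i) v := by
  simp only [pr, Finset.sum_apply, Finset.sum_mul]
  rw [Finset.sum_comm]

lemma pr_sum_right {ι : Type*} (s : Finset ι) (u : X → ℂ) (v : ι → X → ℂ) :
    pr u (∑ i ∈ s, v i) = ∑ i ∈ s, pr u (v i) := by
  simp only [pr, Finset.sum_apply, Finset.mul_sum]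
  rw [Finset.sum_comm]

lemma eq_zero_of_pr {v : X → ℂ} (h : ∀ u, pr u v = 0) : v = 0 := by
  classical
  ext x
  simpa [pr, Pi.single_apply] using h (Pi.single x 1)

lemma pr_orth {u v : X → ℂ} {a b : ℂ} (hu : ∀ x, u x = a * u (ModularGroup.T • x))
    (hv : ∀ x, v x = b * v (ModularGroup.T • x)) (hab : a * b ≠ 1) : pr u v = 0 := by
  have h1 : pr u v = a * b * pr u v := by
    conv_lhs => unfold pr
    conv_rhs => rw [pr, ← Equiv.sum_comp (MulAction.toPerm ModularGroup.T), Finset.mul_sum]
    refine Finset.sum_congr rfl fun x _ => ?_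
    simp only [MulAction.toPerm_apply]
    rw [hu x, hv x]; ring
  have : (a * b - 1) * pr u v = 0 := by linear_combination -h1
  rcases mul_eq_zero.mp this with h | h
  · exact absurd (sub_eq_zero.mp h) hab
  · exact h

lemma per_sum {ι : Type} (s : Finset ι) {h : ℝ} {f : ι → ℍ → ℂ} (hf : ∀ i ∈ s, Per h (f i)) :
    Per h (∑ i ∈ s, f i) := by
  classical
  induction s using Finset.induction_on with
  | empty =>
    refine ⟨fun x => by simp, mdifferentiable_const, by simpa using! zero_form_isBoundedAtImInfty⟩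
  | insert a s ha ih =>
    rw [Finset.sum_insert ha]
    exact (hf a (Finset.mem_insert_self _ _)).add
      (ih fun i hi => hf i (Finset.mem_insert_of_mem hi))

lemma qExpansion_sum {ι : Type} (s : Finset ι) {h : ℝ} (hh : 0 < h) {f : ι → ℍ → ℂ}
    (hf : ∀ i ∈ s, Per h (f i)) :
    qExpansion h (∑ i ∈ s, f i) = ∑ i ∈ s, qExpansion h (f i) := by
  classical
  induction s using Finset.induction_on with
  | empty => simpa using qExpansion_zero h
  | insert a s ha ih =>
    rw [Finset.sum_insert ha, Finset.sum_insert ha, qExpansion_add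
      ((hf a (Finset.mem_insert_self _ _)).analyticAt hh)
      ((per_sum s fun i hi => hf i (Finset.mem_insert_of_mem hi)).analyticAt hh),
      ih fun i hi => hf i (Finset.mem_insert_of_mem hi)]

lemma tr_eq_sum (F G : X → ℍ → ℂ) : tr F G = ∑ x : X, F x * G x := by
  ext z; simp [tr]

lemma tr_per (hT : ∀ x : X, (ModularGroup.T ^ N) • x = x) {k l : ℤ} {F G : X → ℍ → ℂ}
    (hF : F ∈ VM X k) (hG : G ∈ VM X l) : Per N (tr F G) := by
  rw [tr_eq_sum]
  exact per_sum _ fun x _ => (VM.perN hT hF x).mul (VM.perN hT hG x)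

lemma coeff_tr (hN : 0 < N) (hT : ∀ x : X, (ModularGroup.T ^ N) • x = x) {k l : ℤ}
    {F G : X → ℍ → ℂ} (hF : F ∈ VM X k) (hG : G ∈ VM X l) (m : ℕ) :
    (qExpansion N (tr F G)).coeff m =
      ∑ p ∈ Finset.HasAntidiagonal.antidiagonal m, pr (co N p.1 F) (co N p.2 G) := by
  have hN' : (0:ℝ) < N := by exact_mod_cast hN
  rw [tr_eq_sum, qExpansion_sum _ hN' fun x _ => (VM.perN hT hF x).mul (VM.perN hT hG x),
    map_sum]
  simp only [pr]
  rw [Finset.sum_comm]
  refine Finset.sum_congr rfl fun x _ => ?_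
  rw [qExpansion_mul ((VM.perN hT hF x).analyticAt hN') ((VM.perN hT hG x).analyticAt hN'),
    PowerSeries.coeff_mul]
  rfl

lemma zt_pow_inj (hN : 0 < N) {a b : ℕ} (ha : a < N) (hb : b < N) (h : zt N ^ a = zt N ^ b) :
    a = b := (zt_prim hN).pow_inj ha hb h

lemma co_orth (hN : 0 < N) (hT : ∀ x : X, (ModularGroup.T ^ N) • x = x) {k l : ℤ}
    {F G : X → ℍ → ℂ} (hF : F ∈ VM X k) (hG : G ∈ VM X l) {i j : ℕ} (hij : ¬ N ∣ i + j) :
    pr (co N i F) (co N j G) = 0 := by
  refine pr_orth (co_T hN hT hF i) (co_T hN hT hG j) ?_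
  rw [← pow_add]
  intro h1
  exact hij ((zt_prim hN).dvd_of_pow_eq_one _ h1)

/-- first criterion -/
lemma co_zero_of_tr (h : Good X N) {k l : ℤ} (hs : Function.Surjective (jetL X h.hN h.hT k))
    {G : X → ℍ → ℂ} (hG : G ∈ VM X l)
    (htr : ∀ F ∈ VM X k, (qExpansion N (tr F G)).coeff 0 = 0) : co N 0 G = 0 := by
  have hN := h.hN
  have hT := h.hT
  apply eq_zero_of_pr
  intro u
  obtain ⟨F, hF⟩ := hs u
  have h1 := htr F.1 F.2
  rw [coeff_tr hN hT F.2 hG] at h1
  simp only [Finset.HasAntidiagonal.antidiagonal_zero, Finset.sum_singleton] at h1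
  rw [← hF, jetL_apply, jet, pr_sum_left, Finset.sum_eq_single 0]
  · exact h1
  · intro i hi hi0
    refine co_orth hN hT F.2 hG ?_
    intro hd
    have := Nat.le_of_dvd (by omega) hd
    have := Finset.mem_range.mp hi
    omega
  · intro h0
    exact absurd (Finset.mem_range.mpr hN) h0

/-- second criterion -/
lemma co_N_of_tr (h : Good X N) {k l : ℤ} (hs : Function.Surjective (jetL X h.hN h.hT k))
    {G : X → ℍ → ℂ} (hG : G ∈ VM X l) (h0 : co N 0 G = 0)
    (htr : ∀ F ∈ VM X k, (qExpansion N (tr F G)).coeff N = 0) :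
    ∀ m, 0 < m → m ≤ N → co N m G = 0 := by
  have hN := h.hN
  have hT := h.hT
  have hsum : ∑ i ∈ Finset.range N, co N (N - i) G = 0 := by
    apply eq_zero_of_pr
    intro u
    obtain ⟨F, hF⟩ := hs u
    have h1 := htr F.1 F.2
    rw [coeff_tr hN hT F.2 hG, Finset.Nat.sum_antidiagonal_eq_sum_range_succ_mk,
      Finset.sum_range_succ] at h1
    simp only [Nat.sub_self, h0] at h1
    have h2 : pr (co N N F.1) 0 = 0 := by simp [pr]
    rw [h2, add_zero] at h1
    rw [← hF, jetL_apply, jet, pr_sum_left, ← h1]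
    refine Finset.sum_congr rfl fun i hi => ?_
    rw [pr_sum_right, Finset.sum_eq_single_of_mem i hi]
    · intro j hj hji
      refine co_orth hN hT F.2 hG ?_
      have hi := Finset.mem_range.mp hi
      have hj := Finset.mem_range.mp hj
      intro hd
      obtain ⟨c, hc⟩ := hd
      have : c = 1 := by
        have h1 : i + (N - j) < 2 * N := by omega
        have h2 : 0 < i + (N - j) := by omega
        rw [hc] at h1 h2
        have h3 : c < 2 := by
          by_contra h3
          push Not at h3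
          have := Nat.mul_le_mul_left N h3
          omega
        have h4 : 0 < c := by
          rcases Nat.eq_zero_or_pos c with h5 | h5
          · subst h5; simp at h2
          · exact h5
        omega
      subst this
      omega
  intro m hm hmN
  have key := eig_indep (Finset.range N) (fun i => zt N ^ (N - i)) ?_ (fun i => co N (N - i) G)
    (fun i _ x => co_T hN hT hG (N - i) x) hsum (N - m) (Finset.mem_range.mpr (by omega))
  · rwa [show N - (N - m) = m by omega] at key
  · intro a ha b hb hab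
    simp only at hab
    have ha := Finset.mem_range.mp ha
    have hb := Finset.mem_range.mp hb
    have e1 : zt N ^ (N - a) * zt N ^ a = 1 := by
      rw [← pow_add, show N - a + a = N by omega, (zt_prim hN).pow_eq_one]
    have e2 : zt N ^ (N - b) * zt N ^ b = 1 := by
      rw [← pow_add, show N - b + b = N by omega, (zt_prim hN).pow_eq_one]
    apply zt_pow_inj hN ha hb
    rw [hab, ← e2] at e1
    exact mul_left_cancel₀ (pow_ne_zero _ zt_ne_zero) e1

end Fermat.Agent.DimS2
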