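import Mathlib

set_option autoImplicit false

open Filter Topology Polynomial

namespace Fermat.Agent.DimS2

/-- A locally finite configuration is determined by its power sums. -/
theorem powerSum_eq_zero {ι : Type*} (u : ι → ℂ) (hu : Function.Injective u) (c : ι → ℂ) (k₀ : ℕ)
    (hs : ∀ k ≥ k₀, Summable fun i => c i * u i ^ k)
    (h0 : ∀ k ≥ k₀, ∑' i, c i * u i ^ k = 0)
    (hfin : ∀ ε > 0, {i | c i ≠ 0 ∧ ε ≤ ‖u i‖}.Finite) (i₀ : ι) (hi₀ : u i₀ ≠ 0) : c i₀ = 0 := by
  classical
  set ε := ‖u i₀‖ with hε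
  have hε0 : 0 < ε := norm_pos_iff.mpr hi₀
  let S : Finset ι := (hfin ε hε0).toFinset.erase i₀
  let P : ℂ[X] := ∏ i ∈ S, (X - C (u i))
  have hPS : ∀ i ∈ S, P.eval (u i) = 0 := by
    intro i hi
    simp only [P, eval_prod]
    exact Finset.prod_eq_zero hi (by simp)
  have hP0 : P.eval (u i₀) ≠ 0 := by
    simp only [P, eval_prod]
    refine Finset.prod_ne_zero_iff.mpr fun i hi => ?_
    simp only [eval_sub, eval_X, eval_C, sub_ne_zero]
    intro h
    exact (Finset.mem_erase.mp hi).1 (hu h).symm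
  obtain ⟨B, hB⟩ : ∃ B, ∀ t : ℂ, ‖t‖ ≤ ε → ‖P.eval t‖ ≤ B := by
    have hc : IsCompact (Metric.closedBall (0:ℂ) ε) := isCompact_closedBall _ _
    obtain ⟨B, hB⟩ := hc.exists_bound_of_continuousOn (f := fun t => P.eval t)
      P.continuous.continuousOn
    exact ⟨B, fun t ht => hB t (by simpa using ht)⟩
  have hcase : ∀ i, i = i₀ ∨ c i * P.eval (u i) = 0 ∨ ‖u i‖ < ε := by
    intro i
    by_cases h1 : i = i₀
    · exact Or.inl h1
    by_cases h2 : c i = 0
    · right; left; simp [h2]
    by_cases h3 : ‖u i‖ < ε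
    · exact Or.inr (Or.inr h3)
    · right; left
      rw [hPS i, mul_zero]
      simp only [S, Finset.mem_erase, Set.Finite.mem_toFinset, Set.mem_ofPred_eq]
      exact ⟨h1, h2, not_lt.mp h3⟩
  -- the sums
  have hsum : ∀ m : ℕ, ∑' i, c i * u i ^ k₀ * (u i / u i₀) ^ m * P.eval (u i) = 0 := by
    intro m
    have h1 : ∀ i, c i * u i ^ k₀ * (u i / u i₀) ^ m * P.eval (u i) =
        ∑ j ∈ Finset.range (P.natDegree + 1),
          (P.coeff j * (u i₀)⁻¹ ^ m) * (c i * u i ^ (k₀ + m + j)) := by
      intro i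
      rw [Polynomial.eval_eq_sum_range, Finset.mul_sum]
      refine Finset.sum_congr rfl fun j _ => ?_
      rw [div_eq_mul_inv, mul_pow, pow_add, pow_add]
      ring
    simp_rw [h1]
    rw [Summable.tsum_finsetSum]
    · refine Finset.sum_eq_zero fun j _ => ?_
      rw [tsum_mul_left, h0 _ (by omega), mul_zero]
    · intro j _
      exact (hs _ (by omega)).mul_left _
  have hlim : Tendsto (fun m : ℕ => ∑' i, c i * u i ^ k₀ * (u i / u i₀) ^ m * P.eval (u i)) atTop
      (𝓝 (∑' i, if i = i₀ then c i₀ * u i₀ ^ k₀ * P.eval (u i₀) else 0)) := by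
    refine tendsto_tsum_of_dominated_convergence (bound := fun i => ‖c i * u i ^ k₀‖ * B)
      ((hs k₀ le_rfl).norm.mul_right _) ?_ ?_
    · intro i
      rcases hcase i with h | h | h
      · subst h
        simp [div_self hi₀]
      · have h1 : i ≠ i₀ ∨ i = i₀ := (ne_or_eq i i₀)
        rcases h1 with h1 | h1
        · rw [if_neg h1]
          have h2 : ∀ m : ℕ, c i * u i ^ k₀ * (u i / u i₀) ^ m * P.eval (u i) = 0 := by
            intro m
            have : c i * u i ^ k₀ * (u i / u i₀) ^ m * P.eval (u i) =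
              (c i * P.eval (u i)) * (u i ^ k₀ * (u i / u i₀) ^ m) := by ring
            rw [this, h, zero_mul]
          simp_rw [h2]
          exact tendsto_const_nhds
        · subst h1
          simp [div_self hi₀]
      · have h1 : i ≠ i₀ := by
          rintro rfl
          exact lt_irrefl _ h
        rw [if_neg h1]
        have h2 : Tendsto (fun m : ℕ => (u i / u i₀) ^ m) atTop (𝓝 0) := by
          apply tendsto_pow_atTop_nhds_zero_of_norm_lt_one
          rw [norm_div, div_lt_one hε0]
          exact h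
        have h3 := (h2.const_mul (c i * u i ^ k₀)).mul_const (P.eval (u i))
        simpa using h3
    · refine Eventually.of_forall fun m i => ?_
      have key : ‖u i‖ ≤ ε → ‖c i * u i ^ k₀ * (u i / u i₀) ^ m * P.eval (u i)‖ ≤
          ‖c i * u i ^ k₀‖ * B := by
        intro h
        rw [norm_mul, norm_mul (c i * u i ^ k₀), norm_pow, norm_div]
        have h1 : (‖u i‖ / ‖u i₀‖) ^ m ≤ 1 := by
          apply pow_le_one₀ (by positivity)
          rwa [div_le_one hε0]
        have h2 := hB _ h
        calc ‖c i * u i ^ k₀‖ * (‖u i‖ / ‖u i₀‖) ^ m * ‖P.eval (u i)‖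
            ≤ ‖c i * u i ^ k₀‖ * 1 * B := by gcongr
          _ = _ := by ring
      rcases hcase i with h | h | h
      · subst h; exact key le_rfl
      · have h2 : c i * u i ^ k₀ * (u i / u i₀) ^ m * P.eval (u i) = 0 := by
          have : c i * u i ^ k₀ * (u i / u i₀) ^ m * P.eval (u i) =
            (c i * P.eval (u i)) * (u i ^ k₀ * (u i / u i₀) ^ m) := by ring
          rw [this, h, zero_mul]
        rw [h2, norm_zero]
        have : 0 ≤ B := (norm_nonneg _).trans (hB 0 (by simp [hε0.le]))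
        positivity
      · exact key h.le
  simp_rw [hsum] at hlim
  rw [tsum_ite_eq] at hlim
  have := tendsto_nhds_unique hlim tendsto_const_nhds
  have h3 : c i₀ * (u i₀ ^ k₀ * P.eval (u i₀)) = 0 := by rw [← mul_assoc]; exact this
  rcases mul_eq_zero.mp h3 with h | h
  · exact h
  · exact absurd h (mul_ne_zero (pow_ne_zero _ hi₀) hP0)

end Fermat.Agent.DimS2
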