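import Fermat.Agent.DimS2.Basic

set_option autoImplicit false
set_option linter.unusedSectionVars false

open UpperHalfPlane ModularForm MatrixGroups Matrix.SpecialLinearGroup Filter Function
open scoped Manifold Topology Real

local notation "𝕢" => Function.Periodic.qParam

noncomputable section

namespace Fermat.Agent.DimS2

lemma periodic_of_vadd {h : ℝ} {f : ℍ → ℂ} (hf : ∀ τ : ℍ, f (h +ᵥ τ) = f τ) :
    Periodic (f ∘ ofComplex) h := by
  intro w
  by_cases! hw : 0 < w.im
  · have : 0 < (w + h).im := by simp [hw]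
    simp only [comp_apply, ofComplex_apply_of_im_pos this, ofComplex_apply_of_im_pos hw]
    convert! hf ⟨w, hw⟩ using 2
    ext
    simp [add_comm]
  · have : (w + h).im ≤ 0 := by simpa using hw
    simp [ofComplex_apply_of_im_nonpos this, ofComplex_apply_of_im_nonpos hw]

/-- periodic, holomorphic, bounded at infinity -/
structure Per (h : ℝ) (f : ℍ → ℂ) : Prop where
  per : Periodic (f ∘ ofComplex) h
  holo : MDiff f
  bdd : IsBoundedAtImInfty f

lemma Per.analyticAt {h : ℝ} (hh : 0 < h) {f : ℍ → ℂ} (hf : Per h f) :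
    AnalyticAt ℂ (cuspFunction h f) 0 :=
  analyticAt_cuspFunction_zero hh hf.per hf.holo hf.bdd

lemma Per.hasSum {h : ℝ} (hh : 0 < h) {f : ℍ → ℂ} (hf : Per h f) (τ : ℍ) :
    HasSum (fun m : ℕ ↦ (qExpansion h f).coeff m • 𝕢 h τ ^ m) (f τ) :=
  hasSum_qExpansion hh hf.per hf.holo hf.bdd τ

lemma Per.hasFPowerSeriesAt {h : ℝ} (hh : 0 < h) {f : ℍ → ℂ} (hf : Per h f) :
    HasFPowerSeriesAt (cuspFunction h f)
      (FormalMultilinearSeries.ofScalars ℂ (fun m => (qExpansion h f).coeff m)) 0 :=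
  (hasFPowerSeriesOnBall_cuspFunction hh (hf.analyticAt hh) (hf.hasSum hh)).hasFPowerSeriesAt

lemma Per.add {h : ℝ} {f g : ℍ → ℂ} (hf : Per h f) (hg : Per h g) : Per h (f + g) :=
  ⟨fun x => by
    have h1 := hf.per x
    have h2 := hg.per x
    simp only [comp_apply, Pi.add_apply] at *
    rw [h1, h2], hf.holo.add hg.holo, hf.bdd.add hg.bdd⟩

lemma Per.mul {h : ℝ} {f g : ℍ → ℂ} (hf : Per h f) (hg : Per h g) : Per h (f * g) :=
  ⟨fun x => by
    have h1 := hf.per x
    have h2 := hg.per x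
    simp only [comp_apply, Pi.mul_apply] at *
    rw [h1, h2], hf.holo.mul hg.holo, hf.bdd.mul hg.bdd⟩

lemma Per.tendsto {h : ℝ} (hh : 0 < h) {f : ℍ → ℂ} (hf : Per h f) :
    Tendsto f atImInfty (𝓝 ((qExpansion h f).coeff 0)) := by
  rw [qExpansion_coeff_zero hh (hf.analyticAt hh) hf.per,
    ← cuspFunction_apply_zero hh (hf.analyticAt hh) hf.per]
  exact ((hf.analyticAt hh).continuousAt.tendsto.comp (qParam_tendsto_atImInfty hh)).congr
    (fun τ ↦ eq_cuspFunction τ hh.ne' hf.per)

lemma Per.isZero_iff {h : ℝ} (hh : 0 < h) {f : ℍ → ℂ} (hf : Per h f) :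
    IsZeroAtImInfty f ↔ (qExpansion h f).coeff 0 = 0 := by
  constructor
  · intro h0
    exact tendsto_nhds_unique (hf.tendsto hh) h0
  · intro h0
    have := hf.tendsto hh
    rw [h0] at this
    exact this

lemma Per.coeff_unique {h : ℝ} (hh : 0 < h) {f : ℍ → ℂ} (hf : Per h f) {c : ℕ → ℂ}
    (hc : ∀ τ : ℍ, HasSum (fun m ↦ c m • 𝕢 h τ ^ m) (f τ)) (m : ℕ) :
    c m = (qExpansion h f).coeff m := by
  have h1 := (hasFPowerSeriesOnBall_cuspFunction hh (hf.analyticAt hh) hc).hasFPowerSeriesAt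
  have h2 := hf.hasFPowerSeriesAt hh
  simpa using congr_arg (FormalMultilinearSeries.coeff · m) (h1.eq_formalMultilinearSeries h2)

lemma Per.isBigO_cusp {h : ℝ} (hh : 0 < h) {f : ℍ → ℂ} (hf : Per h f) (m : ℕ) :
    (fun q => cuspFunction h f q -
      ∑ i ∈ Finset.range m, (qExpansion h f).coeff i * q ^ i) =O[𝓝 0] fun q : ℂ => ‖q‖ ^ m := by
  have := (hf.hasFPowerSeriesAt hh).isBigO_sub_partialSum_pow m
  simpa [FormalMultilinearSeries.partialSum, mul_comm] using this

lemma Per.isBigO_of_coeff_eq_zero {h : ℝ} (hh : 0 < h) {f : ℍ → ℂ} (hf : Per h f) {m : ℕ}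
    (hc : ∀ i < m, (qExpansion h f).coeff i = 0) :
    f =O[atImInfty] fun τ : ℍ => Real.exp (-2 * π * m * τ.im / h) := by
  have h1 := hf.isBigO_cusp hh m
  have h2 : (fun q => cuspFunction h f q) =O[𝓝 0] fun q : ℂ => ‖q‖ ^ m := by
    refine h1.congr_left fun q => ?_
    rw [Finset.sum_eq_zero, sub_zero]
    intro i hi
    rw [hc i (Finset.mem_range.mp hi), zero_mul]
  have h3 := h2.comp_tendsto (qParam_tendsto_atImInfty hh)
  refine (h3.congr (fun τ => ?_) (fun τ => ?_))
  · exact eq_cuspFunction τ hh.ne' hf.per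
  · simp only [comp_apply, Periodic.norm_qParam]
    rw [← Real.exp_nat_mul]
    congr 1
    simp
    ring

lemma Per.coeff_eq_zero_of_isBigO {h : ℝ} (hh : 0 < h) {f : ℍ → ℂ} (hf : Per h f) {m : ℕ}
    (hO : f =O[atImInfty] fun τ : ℍ => Real.exp (-2 * π * m * τ.im / h)) :
    ∀ i < m, (qExpansion h f).coeff i = 0 := by
  -- transport to the punctured disc
  have h1 : (fun q => cuspFunction h f q) =O[𝓝[≠] 0] fun q : ℂ => ‖q‖ ^ m := by
    have hO' : (fun w : ℂ => (f ∘ ofComplex) w) =O[comap Complex.im atTop]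
        fun w : ℂ => Real.exp (-2 * π * m * (ofComplex w).im / h) :=
      hO.comp_tendsto tendsto_comap_im_ofComplex
    have := hO'.comp_tendsto (Periodic.invQParam_tendsto hh)
    refine (this.congr' ?_ ?_)
    · filter_upwards [self_mem_nhdsWithin] with q hq
      simp only [comp_apply]
      rw [cuspFunction, Periodic.cuspFunction_eq_of_nonzero h _ hq]
      rfl
    · have hlt : ∀ᶠ q in 𝓝[≠] (0:ℂ), ‖q‖ < 1 := by
        have : ∀ᶠ q in 𝓝 (0:ℂ), ‖q‖ < 1 := by
          have := Metric.ball_mem_nhds (0:ℂ) one_pos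
          filter_upwards [this] with q hq
          simpa using hq
        exact this.filter_mono nhdsWithin_le_nhds
      filter_upwards [self_mem_nhdsWithin, hlt] with q hq hq1
      have him := Periodic.im_invQParam_pos_of_norm_lt_one hh hq1 hq
      simp only [comp_apply]
      rw [ofComplex_apply_of_im_pos him]
      have : ‖q‖ = Real.exp (-2 * π * (Periodic.invQParam h q).im / h) := by
        rw [← Periodic.norm_qParam, Periodic.qParam_right_inv hh.ne' hq]
      rw [this, ← Real.exp_nat_mul]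
      congr 1
      change -2 * π * m * (Periodic.invQParam h q).im / h = _
      ring
  intro i
  induction i using Nat.strong_induction_on with
  | _ i ih =>
    intro hi
    have h2 := (hf.isBigO_cusp hh (i+1)).mono (nhdsWithin_le_nhds (s := {0}ᶜ))
    have h3 : (fun q : ℂ => ‖q‖ ^ m) =O[𝓝[≠] 0] fun q : ℂ => ‖q‖ ^ (i+1) := by
      refine Asymptotics.IsBigO.of_bound 1 ?_
      have hlt : ∀ᶠ q in 𝓝[≠] (0:ℂ), ‖q‖ < 1 := by
        have : ∀ᶠ q in 𝓝 (0:ℂ), ‖q‖ < 1 := by
          have := Metric.ball_mem_nhds (0:ℂ) one_pos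
          filter_upwards [this] with q hq
          simpa using hq
        exact this.filter_mono nhdsWithin_le_nhds
      filter_upwards [hlt] with q hq
      simp only [norm_pow, norm_norm, one_mul]
      exact pow_le_pow_of_le_one (norm_nonneg _) hq.le hi
    have h4 : (fun q : ℂ => (qExpansion h f).coeff i * q ^ i) =O[𝓝[≠] 0]
        fun q : ℂ => ‖q‖ ^ (i+1) := by
      have := ((h1.trans h3).sub h2)
      refine this.congr_left fun q => ?_
      rw [Finset.sum_range_succ, Finset.sum_eq_zero]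
      · ring
      · intro j hj
        have hj := Finset.mem_range.mp hj
        rw [ih j hj (hj.trans hi), zero_mul]
    by_contra hne
    have h5 : (fun q : ℂ => (1:ℝ)) =O[𝓝[≠] 0] fun q : ℂ => ‖q‖ := by
      obtain ⟨C, hC⟩ := h4.bound
      refine Asymptotics.IsBigO.of_bound (C / ‖(qExpansion h f).coeff i‖) ?_
      filter_upwards [hC, self_mem_nhdsWithin] with q hq hq0
      have hq0' : 0 < ‖q‖ ^ i := pow_pos (norm_pos_iff.mpr hq0) _
      have hcp : 0 < ‖(qExpansion h f).coeff i‖ := norm_pos_iff.mpr hne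
      simp only [norm_mul, norm_pow, norm_norm, pow_succ] at hq ⊢
      rw [div_mul_eq_mul_div, le_div_iff₀ hcp]
      rw [norm_one, one_mul]
      have : ‖(qExpansion h f).coeff i‖ * ‖q‖ ^ i ≤ (C * ‖q‖) * ‖q‖ ^ i := by
        calc _ ≤ _ := hq
          _ = _ := by ring
      exact le_of_mul_le_mul_right this hq0'
    have h6 : Tendsto (fun q : ℂ => (1:ℝ)) (𝓝[≠] (0:ℂ)) (𝓝 0) := by
      refine h5.trans_tendsto ?_
      have : Tendsto (fun q : ℂ => ‖q‖) (𝓝 0) (𝓝 ‖(0:ℂ)‖) := continuous_norm.tendsto 0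
      rw [norm_zero] at this
      exact this.mono_left nhdsWithin_le_nhds
    have h7 := tendsto_nhds_unique h6 tendsto_const_nhds
    exact zero_ne_one h7

end Fermat.Agent.DimS2
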